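import Fermat.Agent.G1.H.Main
import Fermat.Agent.G1.A.ModDefs
import Fermat.Agent.G1.B.Kills
import Fermat.Agent.G1.C.Export
import Fermat.Agent.G1.E.BR9
import Fermat.Agent.S48.Per.Defs

/-!
# G1-H, file Build: construction of `KummerData1 M L ℓ` (port of `GR/I/Build.lean`)

Inputs, all in hypothesis form:
* `CharTheory1 M` = the calculus of the relation `A.HasChar M n u φ` over `ℂ` (G1-A, G1-B),
  with `AlgRel ℂ M` and `DiamondExists ℂ M`;
* `E.ModelExists` (G1-D);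
* `LatSpec M ℓ L`: `L.Lam` is identified with `V_ℓ = {ψ : Γ₁(M) → ℤ/ℓ | Kills1 ψ}`, compatibly with
  `T_p` and `⟨p⟩` (S48-PER, `latMod`).
Already proved and used here: G1-C (descent `ℂ → ℚ̄`, Galois action), G1-E (crux), G1-F (unramified,
Eichler-Shimura with diamonds).
-/

set_option autoImplicit false

open CongruenceSubgroup ModularCurve
open scoped MatrixGroups

namespace Fermat.Agent.G1.H

open Fermat.Agent.GR Fermat.Agent.G1 Fermat.Agent.G1.A Fermat.Agent.G1.B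
open Fermat.Agent.S48.Per (Kills1)

theorem Build_coprime {M p : ℕ} (hp : p.Prime) (hpM : ¬ p ∣ M) : p.Coprime M :=
  (Nat.Prime.coprime_iff_not_dvd hp).2 hpM

/-- INTERFACE consumed from G1-A and G1-B: everything is over `ℂ`. -/
structure CharTheory1 (M : ℕ) [NeZero M] : Prop where
  algRel : C.AlgRel ℂ M
  diamondExists : DiamondExists ℂ M
  /-- (A1) -/
  exists_char : ∀ (n : ℕ) [NeZero n] (u : LaurentSeries ℂ), IsKummer1 (M := M) n u →
    ∃ φ : Additive (Gamma1 M) →+ ZMod n, Kills1 φ ∧ HasChar M n u φ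
  /-- (A2) -/
  isKummer : ∀ (n : ℕ) [NeZero n] (u : LaurentSeries ℂ) (φ : Additive (Gamma1 M) →+ ZMod n),
    HasChar M n u φ → Kills1 φ → IsKummer1 (M := M) n u
  /-- (A3) -/
  unique : ∀ (n : ℕ) [NeZero n] (u : LaurentSeries ℂ) (φ φ' : Additive (Gamma1 M) →+ ZMod n),
    HasChar M n u φ → HasChar M n u φ' → φ = φ'
  /-- (A4) -/
  mul : ∀ (n : ℕ) [NeZero n] (u u' : LaurentSeries ℂ) (φ φ' : Additive (Gamma1 M) →+ ZMod n),
    HasChar M n u φ → HasChar M n u' φ' → HasChar M n (u * u') (φ + φ')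
  inv : ∀ (n : ℕ) [NeZero n] (u : LaurentSeries ℂ) (φ : Additive (Gamma1 M) →+ ZMod n),
    HasChar M n u φ → HasChar M n u⁻¹ (-φ)
  congr : ∀ (n : ℕ) [NeZero n] (u u' : LaurentSeries ℂ) (φ : Additive (Gamma1 M) →+ ZMod n),
    HasChar M n u φ → KummerEquiv1 M n u u' → HasChar M n u' φ
  /-- (A5) -/
  zero : ∀ (n : ℕ) [NeZero n] (u : LaurentSeries ℂ), HasChar M n u 0 → KummerEquiv1 M n 1 u
  /-- (A6) -/
  surj : ∀ (n : ℕ) [NeZero n] (φ : Additive (Gamma1 M) →+ ZMod n), Kills1 φ →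
    ∃ u : LaurentSeries ℂ, HasChar M n u φ
  /-- (B1) -/
  heckeMulT1_mem : ∀ (p : ℕ) [Fact p.Prime] (hpM : ¬ p ∣ M) (ζ : ℂˣ), IsPrimitiveRoot ζ p →
    ∀ δ : FF1 ℂ M ≃ₐ[ℂ] FF1 ℂ M, IsDiamond ℂ M (unitP M p (Build_coprime Fact.out hpM))⁻¹ δ →
    ∀ u : FF1 ℂ M, heckeMulT1 p ζ δ u ∈ FF1 ℂ M
  /-- (B3) for `T_p` -/
  hasChar_heckeMulT1 : ∀ (p : ℕ) [Fact p.Prime] (hpM : ¬ p ∣ M) (ζ : ℂˣ), IsPrimitiveRoot ζ p →
    ∀ δ : FF1 ℂ M ≃ₐ[ℂ] FF1 ℂ M, IsDiamond ℂ M (unitP M p (Build_coprime Fact.out hpM))⁻¹ δ →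
    ∀ (n : ℕ) [NeZero n] (u : FF1 ℂ M) (φ : Additive (Gamma1 M) →+ ZMod n),
      HasChar M n (u : LaurentSeries ℂ) φ →
        HasChar M n (heckeMulT1 p ζ δ u) ((repsT1 p hpM).op (ZMod n) φ)
  /-- (Bd) for `⟨p⟩ = δ_{p⁻¹}` = composition with `σ_p` -/
  hasChar_diam : ∀ (p : ℕ) [Fact p.Prime] (hpM : ¬ p ∣ M)
    (δ : FF1 ℂ M ≃ₐ[ℂ] FF1 ℂ M), IsDiamond ℂ M (unitP M p (Build_coprime Fact.out hpM))⁻¹ δ →
    ∀ (n : ℕ) [NeZero n] (u : FF1 ℂ M) (φ φ' : Additive (Gamma1 M) →+ ZMod n),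
      HasChar M n (u : LaurentSeries ℂ) φ →
      (∀ γ γ' : Gamma1 M, (γ' : SL(2, ℤ)) = sigmaP M p hpM * γ * (sigmaP M p hpM)⁻¹ →
        φ' (Additive.ofMul γ) = φ (Additive.ofMul γ')) →
      HasChar M n ((δ u : FF1 ℂ M) : LaurentSeries ℂ) φ'

/-- INTERFACE consumed from S48-PER: `L.Lam / ℓ = V_ℓ` (`L.Lam = V_ℓ` itself, or a free `ℤ`-module
with a surjection onto `V_ℓ` with kernel `ℓ L.Lam`, as `S48.Per.latMod`). -/
structure LatSpec (M ℓ : ℕ) (L : HeckeLat) where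
  red : L.Lam →+ (Additive (Gamma1 M) →+ ZMod ℓ)
  red_eq_zero_iff : ∀ x, red x = 0 ↔ ∃ y, x = (ℓ : ℤ) • y
  free_or_inj : Module.Free ℤ L.Lam ∨ Function.Injective red
  red_kills : ∀ x, Kills1 (red x)
  red_surj : ∀ ψ : Additive (Gamma1 M) →+ ZMod ℓ, Kills1 ψ → ∃ x, red x = ψ
  red_T : ∀ (p : ℕ) [Fact p.Prime] (hpM : ¬ p ∣ M) (x : L.Lam),
    red (L.T p x) = (repsT1 p hpM).op (ZMod ℓ) (red x)
  red_D : ∀ (p : ℕ) [Fact p.Prime] (hpM : ¬ p ∣ M) (x : L.Lam) (γ γ' : Gamma1 M),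
    (γ' : SL(2, ℤ)) = sigmaP M p hpM * γ * (sigmaP M p hpM)⁻¹ →
      red (L.D p x) (Additive.ofMul γ) = red x (Additive.ofMul γ')

variable {M : ℕ} [NeZero M]

open Classical in
/-- "the" character of `U` (junk if there is none). -/
noncomputable def chi1 (M n : ℕ) (U : LaurentSeries ℂ) : Additive (Gamma1 M) →+ ZMod n :=
  if h : ∃ (_ : NeZero n) (φ : Additive (Gamma1 M) →+ ZMod n), HasChar M n U φ then
    h.choose_spec.choose else 0

namespace CharTheory1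

variable (T : CharTheory1 M)
include T

theorem chi_eq {n : ℕ} [NeZero n] {U : LaurentSeries ℂ} {φ : Additive (Gamma1 M) →+ ZMod n}
    (h : HasChar M n U φ) : chi1 M n U = φ := by
  have hex : ∃ (_ : NeZero n) (φ : Additive (Gamma1 M) →+ ZMod n), HasChar M n U φ :=
    ⟨inferInstance, φ, h⟩
  have h1 : chi1 M n U = hex.choose_spec.choose := dif_pos hex
  rw [h1]
  exact T.unique n U _ _ hex.choose_spec.choose_spec h

theorem hasChar_chi {n : ℕ} [NeZero n] {U : LaurentSeries ℂ} (hU : IsKummer1 (M := M) n U) :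
    HasChar M n U (chi1 M n U) := by
  obtain ⟨φ, -, hφ⟩ := T.exists_char n U hU
  rw [T.chi_eq hφ]
  exact hφ

theorem kills_chi {n : ℕ} [NeZero n] {U : LaurentSeries ℂ} (hU : IsKummer1 (M := M) n U) :
    Kills1 (chi1 M n U) := by
  obtain ⟨φ, hk, hφ⟩ := T.exists_char n U hU
  rw [T.chi_eq hφ]
  exact hk

theorem kummerEquiv_of_hasChar {n : ℕ} [NeZero n] {U U' : LaurentSeries ℂ}
    {φ : Additive (Gamma1 M) →+ ZMod n} (hU0 : U ≠ 0) (h : HasChar M n U φ)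
    (h' : HasChar M n U' φ) : KummerEquiv1 M n U U' := by
  have h1 := T.mul n _ _ _ _ (T.inv n U φ h) h'
  rw [neg_add_cancel] at h1
  have h2 := (KummerEquiv1.refl (N := M) (n := n) U).mul (T.zero n _ h1)
  rwa [mul_one, mul_inv_cancel_left₀ hU0] at h2

variable (ι : Qbar →+* ℂ)
include ι

omit T in
theorem isPrimitiveRoot_map_iota {p : ℕ} {ζ : Qbarˣ} (hζ : IsPrimitiveRoot ζ p) :
    IsPrimitiveRoot (Units.map (ι : Qbar →* ℂ) ζ) p :=
  hζ.map_of_injective (Units.map_injective ι.injective)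

theorem theta_mul {n : ℕ} (hn : 0 < n) (u v : LaurentSeries Qbar) (hu : IsKummer1 (M := M) n u)
    (hv : IsKummer1 (M := M) n v) :
    chi1 M n (coeffMap ι (u * v)) = chi1 M n (coeffMap ι u) + chi1 M n (coeffMap ι v) := by
  have : NeZero n := ⟨hn.ne'⟩
  rw [map_mul]
  exact T.chi_eq (T.mul n _ _ _ _ (T.hasChar_chi (C.isKummer_coeffMap_hom ι hu))
    (T.hasChar_chi (C.isKummer_coeffMap_hom ι hv)))

theorem theta_eq_iff {n : ℕ} (hn : 0 < n) (u v : LaurentSeries Qbar)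
    (hu : IsKummer1 (M := M) n u) (hv : IsKummer1 (M := M) n v) :
    chi1 M n (coeffMap ι u) = chi1 M n (coeffMap ι v) ↔ KummerEquiv1 M n u v := by
  have : NeZero n := ⟨hn.ne'⟩
  have hu' := C.isKummer_coeffMap_hom ι hu
  have hv' := C.isKummer_coeffMap_hom ι hv
  constructor
  · intro h
    rw [← C.kummerEquiv_iota_iff ι hn]
    have h1 := T.hasChar_chi hu'
    rw [h] at h1
    exact T.kummerEquiv_of_hasChar hu'.ne_zero h1 (T.hasChar_chi hv')
  · intro h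
    exact (T.chi_eq (T.congr n _ _ _ (T.hasChar_chi hu') (C.kummerEquiv_coeffMap h ι))).symm

theorem theta_surj {n : ℕ} (hn : 0 < n)
    (hfin : {φ : Additive (Gamma1 M) →+ ZMod n | Kills1 φ}.Finite)
    (ψ : Additive (Gamma1 M) →+ ZMod n) (hk : Kills1 ψ) :
    ∃ u, IsKummer1 (M := M) n u ∧ chi1 M n (coeffMap ι u) = ψ := by
  have : NeZero n := ⟨hn.ne'⟩
  obtain ⟨U, hU⟩ := T.surj n _ hk
  have hUK := T.isKummer n U _ hU hk
  obtain ⟨u, hu, hUu⟩ := C.exists_descent_iota ι T.algRel hn (HasChar M n)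
    {φ : Additive (Gamma1 M) →+ ZMod n | Kills1 φ} hfin
    (fun V hV => T.exists_char n V hV)
    (fun V V' φ hV _ h h' => T.kummerEquiv_of_hasChar hV.ne_zero h h') hUK
  exact ⟨u, hu, T.chi_eq (T.congr n _ _ _ hU hUu)⟩

omit ι in
theorem diamQ : DiamondExists Qbar M := C.diamondExists_Qbar T.diamondExists

omit ι in
theorem isDiamond_diamP_C {p : ℕ} (h : p.Coprime M) :
    IsDiamond ℂ M (unitP M p h)⁻¹ (diamP ℂ M p h) := isDiamond_diam T.diamondExists _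

omit ι in
theorem isDiamond_diamP_Q {p : ℕ} (h : p.Coprime M) :
    IsDiamond Qbar M (unitP M p h)⁻¹ (diamP Qbar M p h) := isDiamond_diam T.diamQ _

theorem heckeStable {n p : ℕ} (hn : 0 < n) [Fact p.Prime] (hpM : ¬ p ∣ M) (ζ : Qbarˣ)
    (hζ : IsPrimitiveRoot ζ p) :
    HeckeStable M n p ζ (diamP Qbar M p (Build_coprime Fact.out hpM)) := by
  have : NeZero n := ⟨hn.ne'⟩
  refine C.heckeStable_of_complex ι T.algRel (T.isDiamond_diamP_Q _) (T.isDiamond_diamP_C _) ζ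
    (fun U => T.heckeMulT1_mem p hpM _ (isPrimitiveRoot_map_iota ι hζ) _
      (T.isDiamond_diamP_C _) U)
    (fun U hU => T.isKummer n _ _
      (T.hasChar_heckeMulT1 p hpM _ (isPrimitiveRoot_map_iota ι hζ) _ (T.isDiamond_diamP_C _) n U _
        (T.hasChar_chi hU))
      (fun γ hγ => Reps1.op_kills _ _ (T.kills_chi hU) γ hγ))

theorem theta_heckeT {n p : ℕ} (hn : 0 < n) [Fact p.Prime] (hpM : ¬ p ∣ M) (ζ : Qbarˣ)
    (hζ : IsPrimitiveRoot ζ p) (u : FF1 Qbar M)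
    (hu : IsKummer1 (M := M) n (u : LaurentSeries Qbar)) :
    chi1 M n (coeffMap ι (heckeMulT1 p ζ (diamP Qbar M p (Build_coprime Fact.out hpM)) u)) =
      (repsT1 p hpM).op (ZMod n) (chi1 M n (coeffMap ι (u : LaurentSeries Qbar))) := by
  have : NeZero n := ⟨hn.ne'⟩
  have hu' := C.isKummer_coeffMap_hom ι hu
  rw [C.coeffMap_heckeMulT1 ι p ζ (T.isDiamond_diamP_Q _) (T.isDiamond_diamP_C _) u]
  exact T.chi_eq (T.hasChar_heckeMulT1 p hpM _ (isPrimitiveRoot_map_iota ι hζ) _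
    (T.isDiamond_diamP_C _) n (C.bc M ι u) _ (T.hasChar_chi hu'))

theorem theta_diam {n p : ℕ} (hn : 0 < n) [Fact p.Prime] (hpM : ¬ p ∣ M) (u : FF1 Qbar M)
    (hu : IsKummer1 (M := M) n (u : LaurentSeries Qbar))
    (φ' : Additive (Gamma1 M) →+ ZMod n)
    (hφ' : ∀ γ γ' : Gamma1 M, (γ' : SL(2, ℤ)) = sigmaP M p hpM * γ * (sigmaP M p hpM)⁻¹ →
        φ' (Additive.ofMul γ) =
          chi1 M n (coeffMap ι (u : LaurentSeries Qbar)) (Additive.ofMul γ')) :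
    chi1 M n (coeffMap ι ((diamP Qbar M p (Build_coprime Fact.out hpM) u : FF1 Qbar M) :
      LaurentSeries Qbar)) = φ' := by
  have : NeZero n := ⟨hn.ne'⟩
  have hu' := C.isKummer_coeffMap_hom ι hu
  have h1 : coeffMap ι ((diamP Qbar M p (Build_coprime Fact.out hpM) u : FF1 Qbar M) :
      LaurentSeries Qbar) =
      ((diamP ℂ M p (Build_coprime Fact.out hpM) (C.bc M ι u) : FF1 ℂ M) : LaurentSeries ℂ) := by
    rw [← C.coe_bc, (T.isDiamond_diamP_Q _).bc_comm ι (T.isDiamond_diamP_C _)]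
  rw [h1]
  exact T.chi_eq (T.hasChar_diam p hpM _ (T.isDiamond_diamP_C _) n (C.bc M ι u) _ φ'
    (T.hasChar_chi hu') hφ')

end CharTheory1

/-! ### the operators on all Laurent series -/

open Classical in
/-- `⟨p⟩` on `ℚ̄((q))` (junk outside the function field). -/
noncomputable def diamU (M p : ℕ) (u : LaurentSeries Qbar) : LaurentSeries Qbar :=
  if h : p.Coprime M ∧ u ∈ FF1 Qbar M then
    ((diamP Qbar M p h.1 ⟨u, h.2⟩ : FF1 Qbar M) : LaurentSeries Qbar) else u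

omit [NeZero M] in
theorem diamU_eq {p : ℕ} (h : p.Coprime M) {u : LaurentSeries Qbar} (hu : u ∈ FF1 Qbar M) :
    diamU M p u = ((diamP Qbar M p h ⟨u, hu⟩ : FF1 Qbar M) : LaurentSeries Qbar) :=
  dif_pos ⟨h, hu⟩

open Classical in
/-- the multiplicative `T_p` on `ℚ̄((q))` (junk outside the function field). -/
noncomputable def heckeU (M p : ℕ) (ζ : Qbarˣ) (u : LaurentSeries Qbar) : LaurentSeries Qbar :=
  if h : (p.Coprime M ∧ p ≠ 0) ∧ u ∈ FF1 Qbar M then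
    haveI : NeZero p := ⟨h.1.2⟩
    heckeMulT1 p ζ (diamP Qbar M p h.1.1) ⟨u, h.2⟩ else u

omit [NeZero M] in
theorem heckeU_eq {p : ℕ} [NeZero p] (h : p.Coprime M) (ζ : Qbarˣ) {u : LaurentSeries Qbar}
    (hu : u ∈ FF1 Qbar M) :
    heckeU M p ζ u = heckeMulT1 p ζ (diamP Qbar M p h) ⟨u, hu⟩ :=
  dif_pos ⟨⟨h, NeZero.ne p⟩, hu⟩

/-! ### the term -/

omit [NeZero M] in
theorem Build_gal_one (u : LaurentSeries Qbar) : gal (1 : Qbar ≃ₐ[ℚ] Qbar) u = u := by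
  ext k
  rfl

omit [NeZero M] in
theorem Build_gal_mul (σ τ : Qbar ≃ₐ[ℚ] Qbar) (u : LaurentSeries Qbar) :
    gal (σ * τ) u = gal σ (gal τ u) := by
  ext k
  rfl

omit [NeZero M] in
theorem Build_finite_kills {ℓ : ℕ} (hℓ : 0 < ℓ) {L : HeckeLat} (S : LatSpec M ℓ L) :
    {φ : Additive (Gamma1 M) →+ ZMod ℓ | Kills1 φ}.Finite := by
  let R := LinearMap.range S.red.toIntLinearMap
  have htors : Module.IsTorsion ℤ R := by
    rintro ⟨x, hx⟩
    refine ⟨⟨(ℓ : ℤ), ?_⟩, ?_⟩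
    · exact mem_nonZeroDivisors_of_ne_zero (by exact_mod_cast hℓ.ne')
    · apply Subtype.ext
      show (ℓ : ℤ) • x = 0
      ext γ
      simp
  have : Finite R := Module.finite_of_fg_torsion R htors
  have h1 : (R : Set (Additive (Gamma1 M) →+ ZMod ℓ)).Finite := Set.toFinite _
  refine h1.subset ?_
  intro φ hφ
  obtain ⟨x, hx⟩ := S.red_surj φ hφ
  exact ⟨x, hx⟩

theorem Build_crux (hD : E.ModelExists) {ℓ p : ℕ} (hp : p.Prime) (hpM : ¬ p ∣ M * ℓ)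
    (A : ValuationSubring Qbar) (hA : A.LiesOverPrime p) : CruxAt M ℓ A :=
  fun a b ha hb hpa hib hab hK =>
    E.crux_of_modelExists hD hp (by rwa [mul_comm]) hA a b ha hb hpa hib hab hK

/-- G1-A + G1-B + G1-C + G1-D + G1-E + G1-F ⟹ the interface of G1-H. -/
noncomputable def toKummerData1 (T : CharTheory1 M) (hD : E.ModelExists) {ℓ : ℕ} (hℓ : 0 < ℓ)
    {L : HeckeLat} (S : LatSpec M ℓ L) (ι : Qbar →+* ℂ) : KummerData1 M L ℓ where
  U := LaurentSeries Qbar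
  gal := fun σ u => gal σ u
  gal_one := Build_gal_one
  gal_mul := Build_gal_mul
  gal_map_mul := fun σ u v => map_mul _ u v
  IsK := fun u => IsKummer1 (M := M) ℓ u
  Eqv := fun u v => KummerEquiv1 M ℓ u v
  isK_mul := fun _ _ hu hv => hu.mul hv
  isK_gal := fun σ u hu => C.galStable M ℓ σ u hu
  eqv_gal := fun σ _ _ _ _ h => C.kummerEquiv_gal σ h
  level := fun _ hu => C.exists_level_of_mem_FF hu.mem
  X := Additive (Gamma1 M) →+ ZMod ℓ
  red := S.red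
  red_eq_zero_iff := S.red_eq_zero_iff
  theta := fun u => chi1 M ℓ (coeffMap ι u)
  theta_mul := T.theta_mul ι hℓ
  theta_eq_iff := T.theta_eq_iff ι hℓ
  theta_mem := fun u hu =>
    haveI : NeZero ℓ := ⟨hℓ.ne'⟩
    S.red_surj _ (T.kills_chi (C.isKummer_coeffMap_hom ι hu))
  theta_surj := fun x => T.theta_surj ι hℓ (Build_finite_kills hℓ S) _ (S.red_kills x)
  heckeT := heckeU M
  isK_heckeT := fun p ζ hp hpM hζ u hu => by
    haveI : Fact p.Prime := ⟨hp⟩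
    rw [heckeU_eq (Build_coprime hp hpM) ζ hu.mem]
    exact (T.heckeStable ι hℓ hpM ζ hζ).2 ⟨u, hu.mem⟩ hu
  gal_heckeT := fun σ p ζ hp hpM hζ u hu => by
    haveI : Fact p.Prime := ⟨hp⟩
    rw [heckeU_eq (Build_coprime hp hpM) ζ hu.mem,
      heckeU_eq (Build_coprime hp hpM) _ (C.galStable M ℓ σ u hu).mem,
      C.gal_heckeMulT1 σ p ζ (T.isDiamond_diamP_Q _)]
    exact KummerEquiv1.refl _
  theta_heckeT := fun p ζ hp hpM hζ u x hu hx => by
    haveI : Fact p.Prime := ⟨hp⟩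
    rw [heckeU_eq (Build_coprime hp hpM) ζ hu.mem, S.red_T p hpM x, ← hx]
    exact T.theta_heckeT ι hℓ hpM ζ hζ ⟨u, hu.mem⟩ hu
  diam := diamU M
  isK_diam := fun p hp hpM u hu => by
    rw [diamU_eq (Build_coprime hp hpM) hu.mem]
    exact IsKummer1.algEquiv _ (x := ⟨u, hu.mem⟩) hu
  gal_diam := fun σ p hp hpM u hu => by
    rw [diamU_eq (Build_coprime hp hpM) hu.mem,
      diamU_eq (Build_coprime hp hpM) (C.galStable M ℓ σ u hu).mem,
      (T.isDiamond_diamP_Q _).gal_comm σ]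
    exact KummerEquiv1.refl _
  theta_diam := fun p hp hpM u x hu hx => by
    haveI : Fact p.Prime := ⟨hp⟩
    rw [diamU_eq (Build_coprime hp hpM) hu.mem]
    refine T.theta_diam ι hℓ hpM ⟨u, hu.mem⟩ hu _ fun γ γ' h => ?_
    rw [S.red_D p hpM x γ γ' h, ← hx]
  unram := fun p hp hpM A hA σ hσ u hu =>
    kummerEquiv_gal_of_mem_inertia A hℓ (Build_crux hD hp hpM A hA) (C.galStable M ℓ) hσ hu
  frob := fun p ζ hp hpM hζ A hA σ hσ w hw => by
    haveI : Fact p.Prime := ⟨hp⟩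
    have hpM' : ¬ p ∣ M := fun h => hpM (Dvd.dvd.mul_right h ℓ)
    have h := kummerEquiv_heckeMulT1_of_isFrobeniusAt A hℓ hA (Build_crux hD hp hpM A hA)
      (C.galStable M ℓ) ζ hζ (T.isDiamond_diamP_Q (Build_coprime hp hpM'))
      (T.heckeStable ι hℓ hpM' ζ hζ) hσ (u := ⟨w, hw.mem⟩) hw
    rw [heckeU_eq (Build_coprime hp hpM') ζ hw.mem,
      diamU_eq (Build_coprime hp hpM') (C.galStable M ℓ σ⁻¹ w hw).mem]
    rw [(T.isDiamond_diamP_Q _).gal_comm σ⁻¹] at h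
    exact h

theorem toKummerData1_hasLifts (T : CharTheory1 M) (hD : E.ModelExists) {ℓ : ℕ} (hℓ : 0 < ℓ)
    {L : HeckeLat} (S : LatSpec M ℓ L) (ι : Qbar →+* ℂ) :
    (toKummerData1 T hD hℓ S ι).HasLifts := by
  rcases S.free_or_inj with h | h
  · exact (toKummerData1 T hD hℓ S ι).hasLifts_of_free
  · exact (toKummerData1 T hD hℓ S ι).hasLifts_of_injective h

/-- **G1, final hypothesis form**: everything that is still open upstream appears as a
hypothesis. -/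
theorem g1Main_of_charTheory (T : ∀ (M : ℕ) [NeZero M], CharTheory1 M) (hD : E.ModelExists)
    (L : ℕ → ℕ → HeckeLat) (S : ∀ (M : ℕ) [NeZero M] (ℓ : ℕ), ℓ.Prime → LatSpec M ℓ (L M ℓ))
    (hE : EigenStatement L) : Fermat.Agent.S48.G1MainStatement := by
  let ι : Qbar →+* ℂ := (IsAlgClosed.lift (R := ℚ) (S := Qbar) (M := ℂ)).toRingHom
  exact g1Main_of_eigen L hE (fun M _ ℓ hℓ => toKummerData1 (T M) hD hℓ.pos (S M ℓ hℓ) ι)
    (fun M _ ℓ hℓ => toKummerData1_hasLifts (T M) hD hℓ.pos (S M ℓ hℓ) ι)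

end Fermat.Agent.G1.H
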