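import Fermat.Agent.G1.H.Build
import Fermat.Agent.G1.A.Export
import Fermat.Agent.G1.A.CharInjSurj
import Fermat.Agent.G1.A.AlgRel
import Fermat.Agent.G1.A.MemFF1
import Fermat.Agent.G1.B.CharSoft
import Fermat.Agent.G1.B.KummerMain
import Fermat.Agent.G1.B.Diamond

/-!
# G1-H : the term `charTheory1 M : CharTheory1 M` (port of `GR/I/CharTheoryMk.lean`)
-/

set_option autoImplicit false
set_option linter.unusedVariables false

open CongruenceSubgroup ModularCurve
open scoped MatrixGroups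

namespace Fermat.Agent.G1.H

open Fermat.Agent.GR Fermat.Agent.G1 Fermat.Agent.G1.A Fermat.Agent.G1.B

theorem charTheory1 (M : ℕ) [NeZero M] : CharTheory1 M where
  algRel := A.algRel M
  diamondExists := B.diamondExists (A.memFF1 M)
  exists_char := fun n _ u hu => A.exists_char hu
  isKummer := fun n _ u φ h hφ => A.isKummer_of_hasChar h hφ
  unique := fun n _ u φ φ' h h' => B.HasChar.unique h h'
  mul := fun n _ u u' φ φ' h h' => B.HasChar.mul h h'
  inv := fun n _ u φ h => B.HasChar.inv (A.memFF1 M) h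
  congr := fun n _ u u' φ h h' => B.HasChar.congr h h'
  zero := fun n _ u h => A.kummerEquiv_one_of_hasChar_zero h
  surj := fun n _ φ hφ => A.exists_hasChar φ hφ
  heckeMulT1_mem := fun p _ hpM ζ hζ δ hδ u =>
    B.heckeMulT1_mem_FF1 (A.memFF1 M) p hpM _ hδ ζ hζ u
  hasChar_heckeMulT1 := fun p _ hpM ζ hζ δ hδ n _ u φ h =>
    B.hasChar_heckeMulT1 (A.memFF1 M) p hpM _ hδ ζ hζ h
  hasChar_diam := fun p _ hpM δ hδ n _ u φ φ' h hφ' => by
    have h1 := B.hasChar_diamond (A.memFF1 M) (sigmaP_mem M p hpM)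
      (B.realises_sigmaP (A.memFF1 M) p hpM _ hδ) h
    have h2 : φ' = φ.comp (MonoidHom.toAdditive (conjG (sigmaP M p hpM) (sigmaP_mem M p hpM))) := by
      refine AddMonoidHom.ext fun γ => ?_
      obtain ⟨γ, rfl⟩ := Additive.ofMul.surjective γ
      exact hφ' γ (conjG (sigmaP M p hpM) (sigmaP_mem M p hpM) γ) rfl
    rw [h2]
    exact h1

end Fermat.Agent.G1.H
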