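import Mathlib

/-!
# G1-H, file Coord: base change of endomorphisms of a lattice in coordinates (Mathlib only)
-/

set_option autoImplicit false

open scoped TensorProduct

namespace Fermat.Agent.G1.H

variable {Lam : Type} [AddCommGroup Lam] {n : Type} [Fintype n] [DecidableEq n]

/-- coordinates of `f.baseChange K x`. -/
theorem equivFun_baseChange (b : Module.Basis n ℤ Lam) (K : Type) [CommRing K]
    (f : Module.End ℤ Lam) (x : K ⊗[ℤ] Lam) :
    (Algebra.TensorProduct.basis K b).equivFun (f.baseChange K x) =
      ((LinearMap.toMatrix b b f).map (Int.castRingHom K)).mulVec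
        ((Algebra.TensorProduct.basis K b).equivFun x) := by
  have h := LinearMap.toMatrix_mulVec_repr (Algebra.TensorProduct.basis K b)
    (Algebra.TensorProduct.basis K b) (f.baseChange K) x
  rw [LinearMap.toMatrix_baseChange, algebraMap_int_eq] at h
  ext i
  have h1 := congrFun h i
  rw [Module.Basis.equivFun_apply, ← h1]
  rfl

/-- the same through an intermediate ring. -/
theorem map_map_intCast {R K : Type} [CommRing R] [CommRing K] (j : R →+* K)
    (A : Matrix n n ℤ) : (A.map (Int.castRingHom R)).map j = A.map (Int.castRingHom K) := by
  ext i j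
  simp

end Fermat.Agent.G1.H
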