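import Mathlib

/-!
# G1-H, file Formal: the formal Hecke operator on sequences (Mathlib only)
-/

set_option autoImplicit false

namespace Fermat.Agent.G1.H

variable {R : Type*} [CommRing R]

/-- `(T_p a)(n) = a(pn) + c · a(n/p)`. -/
def fT (c : R) (p : ℕ) (a : ℕ → R) : ℕ → R :=
  fun n => a (p * n) + c * (if p ∣ n then a (n / p) else 0)

theorem fT_apply (c : R) (p : ℕ) (a : ℕ → R) (n : ℕ) :
    fT c p a n = a (p * n) + c * (if p ∣ n then a (n / p) else 0) := rfl

/-- the formal Hecke operators at two primes commute. -/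
theorem fT_comm (c c' : R) {p q : ℕ} (hp : p.Prime) (hq : q.Prime) (hc : p = q → c = c')
    (a : ℕ → R) :
    fT c p (fT c' q a) = fT c' q (fT c p a) := by
  rcases eq_or_ne p q with rfl | hpq
  · rw [hc rfl]
  have hcop : Nat.Coprime p q := (Nat.coprime_primes hp hq).2 hpq
  funext n
  simp only [fT]
  have h1 : q ∣ p * n ↔ q ∣ n :=
    ⟨fun h => hcop.symm.dvd_of_dvd_mul_left h, fun h => Dvd.dvd.mul_left h p⟩
  have h2 : p ∣ q * n ↔ p ∣ n :=
    ⟨fun h => hcop.dvd_of_dvd_mul_left h, fun h => Dvd.dvd.mul_left h q⟩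
  by_cases hpn : p ∣ n <;> by_cases hqn : q ∣ n
  · obtain ⟨m, rfl⟩ := hcop.mul_dvd_of_dvd_of_dvd hpn hqn
    have e1 : p * (p * q * m) / q = p * (p * m) := by
      rw [show p * (p * q * m) = q * (p * (p * m)) by ring, Nat.mul_div_cancel_left _ hq.pos]
    have e2 : q * (p * q * m) / p = q * (q * m) := by
      rw [show q * (p * q * m) = p * (q * (q * m)) by ring, Nat.mul_div_cancel_left _ hp.pos]
    have e3 : p * q * m / p = q * m := by
      rw [mul_assoc, Nat.mul_div_cancel_left _ hp.pos]
    have e4 : p * q * m / q = p * m := by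
      rw [show p * q * m = q * (p * m) by ring, Nat.mul_div_cancel_left _ hq.pos]
    have e5 : q * m / q = m := Nat.mul_div_cancel_left _ hq.pos
    have e6 : p * m / p = m := Nat.mul_div_cancel_left _ hp.pos
    simp only [h1, h2, hpn, hqn, if_true, e1, e2, e3, e4, e5, e6, dvd_mul_right]
    rw [show q * (p * (p * q * m)) = p * (q * (p * q * m)) by ring,
      show q * (q * m) = q * (q * m) from rfl]
    ring
  · obtain ⟨m, rfl⟩ := hpn
    have hqm : ¬ q ∣ m := fun h => hqn (Dvd.dvd.mul_left h p)
    have e2 : q * (p * m) / p = q * m := by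
      rw [show q * (p * m) = p * (q * m) by ring, Nat.mul_div_cancel_left _ hp.pos]
    have e6 : p * m / p = m := Nat.mul_div_cancel_left _ hp.pos
    simp only [h1, h2, hqn, hqm, if_false, if_true, e2, e6, dvd_mul_right, mul_zero, add_zero]
    rw [show q * (p * (p * m)) = p * (q * (p * m)) by ring]
  · obtain ⟨m, rfl⟩ := hqn
    have hpm : ¬ p ∣ m := fun h => hpn (Dvd.dvd.mul_left h q)
    have e2 : p * (q * m) / q = p * m := by
      rw [show p * (q * m) = q * (p * m) by ring, Nat.mul_div_cancel_left _ hq.pos]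
    have e6 : q * m / q = m := Nat.mul_div_cancel_left _ hq.pos
    simp only [h1, h2, hpn, hpm, if_false, if_true, e2, e6, dvd_mul_right, mul_zero, add_zero]
    rw [show q * (p * (q * m)) = p * (q * (q * m)) by ring]
  · simp only [h1, h2, hpn, hqn, if_false, mul_zero, add_zero]
    rw [show q * (p * n) = p * (q * n) by ring]

theorem fT_map {R' : Type*} [CommRing R'] (f : R →+* R') (c : R) (p : ℕ) (a : ℕ → R) (n : ℕ) :
    f (fT c p a n) = fT (f c) p (fun m => f (a m)) n := by
  simp only [fT, map_add, map_mul]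
  split_ifs <;> simp

end Fermat.Agent.G1.H
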