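import Mathlib
import Fermat.Agent.S48.Iface

/-!
# G1-H (chain II-H/I of project S48): interface

Export of the module: `Fermat.Agent.S48.G1MainStatement`, in hypothesis form
(`Fermat/Agent/G1/H/Main.lean`, `hasQuadModule_of`).  Everything in `G1/H` is ABSTRACT: it does not
depend on the definition of the function field `FF1 K M`.  The upstream modules deliver

* `HeckeLat`            a finite `ℤ`-module with `T_p`, `⟨p⟩`: `V_ℓ = Hom(Γ₁(M)/⟨ell, par⟩, ℤ/ℓ)`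
                        (S48-PER / G1-B).  NO commutativity, NO Eichler-Shimura isomorphism needed.
* `HasEigen M L Λ t d`  the non-vanishing of the eigenspace (S48-PER).
* `PerData M L`         (alternative route to `HasEigen` when `Lam` is a free lattice) the period
                        map: injective, equivariant.
* `KummerData1 M L ℓ`   Kummer classes mod `ℓ` `≃ Lam/ℓ`, Galois action, Hecke operators, diamonds,
                        unramifiedness, Eichler-Shimura congruence (G1-A/B, G1-C, G1-D/E, G1-F).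
-/

set_option autoImplicit false

open CongruenceSubgroup UpperHalfPlane
open scoped MatrixGroups ModularForm TensorProduct

namespace Fermat.Agent.G1.H

open Fermat.Agent.S48

/-- `f ≡ g mod m` for endomorphisms of an abelian group. -/
def EndCong {Lam : Type} [AddCommGroup Lam] (m : ℕ) (f g : Module.End ℤ Lam) : Prop :=
  ∃ h : Module.End ℤ Lam, f - g = (m : ℤ) • h

/-- A finite `ℤ`-module with operators `T p`, `D p` (only the values at the primes `p ∤ M`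
matter).  Intended instance (helper59, #2554): `Lam = V_ℓ = {ψ : Γ₁(M) → ℤ/ℓ killing ell + par}`
(NOT free; no lattice, no torsion-freeness of `H₁(X₁(M), ℤ)` is needed). -/
structure HeckeLat : Type 1 where
  Lam : Type
  [instAddCommGroup : AddCommGroup Lam]
  [instFinite : Module.Finite ℤ Lam]
  T : ℕ → Module.End ℤ Lam
  D : ℕ → Module.End ℤ Lam

attribute [instance] HeckeLat.instAddCommGroup HeckeLat.instFinite

/-- INTERFACE consumed from S48-PER (+ S48-HECKE): the period map. -/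
structure PerData (M : ℕ) [NeZero M] (L : HeckeLat) where
  per : CuspForm (Gamma1 M) 2 →ₗ[ℂ] ℂ ⊗[ℤ] L.Lam
  per_inj : Function.Injective per
  /-- `T_p g` exists, has the same nebentypus, the expected `q`-expansion and periods. -/
  hT : ∀ p : ℕ, p.Prime → ¬ p ∣ M → ∀ (χ : ZMod M → ℂ) (g : CuspForm (Gamma1 M) 2),
    HasNeb M 2 χ g → ∃ g' : CuspForm (Gamma1 M) 2, HasNeb M 2 χ g' ∧
      (∀ n : ℕ, ModularFormClass.qCoeff g' n = ModularFormClass.qCoeff g (p * n) +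
        (p : ℂ) * χ (p : ZMod M) * (if p ∣ n then ModularFormClass.qCoeff g (n / p) else 0)) ∧
      per g' = (L.T p).baseChange ℂ (per g)
  /-- `⟨p⟩` acts on the periods of `g` through the nebentypus. -/
  hD : ∀ p : ℕ, p.Prime → ¬ p ∣ M → ∀ (χ : ZMod M → ℂ) (g : CuspForm (Gamma1 M) 2),
    HasNeb M 2 χ g → (L.D p).baseChange ℂ (per g) = χ (p : ZMod M) • per g

/-- The Galois action on `Lam/ℓ`, recorded through arbitrary `ℤ`-linear lifts. -/
structure GalData (M : ℕ) (L : HeckeLat) (ℓ : ℕ) where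
  gal : GQ → Module.End ℤ L.Lam
  gal_one : EndCong ℓ (gal 1) 1
  gal_mul : ∀ σ τ, EndCong ℓ (gal (σ * τ)) (gal σ * gal τ)
  gal_T : ∀ σ p, p.Prime → ¬ p ∣ M → EndCong ℓ (gal σ * L.T p) (L.T p * gal σ)
  gal_D : ∀ σ p, p.Prime → ¬ p ∣ M → EndCong ℓ (gal σ * L.D p) (L.D p * gal σ)
  gal_level : ∃ F : IntermediateField ℚ Qb, FiniteDimensional ℚ F ∧
    ∀ σ : GQ, (∀ x ∈ F, σ x = x) → EndCong ℓ (gal σ) 1
  gal_unram : ∀ p : ℕ, p.Prime → ¬ p ∣ M * ℓ → ∀ A : ValuationSubring Qb, A.LiesOverPrime p →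
    ∀ σ ∈ A.inertiaSubgroupIn ℚ, EndCong ℓ (gal σ) 1
  gal_frob : ∀ p : ℕ, p.Prime → ¬ p ∣ M * ℓ → ∀ A : ValuationSubring Qb, A.LiesOverPrime p →
    ∀ σ : GQ, A.IsFrobeniusAt σ p →
      EndCong ℓ (gal σ * gal σ - L.T p * gal σ + (p : ℤ) • L.D p) 0

/-- INTERFACE consumed from G1-A/B, G1-C, G1-D/E, G1-F, in abstract form.
Intended instance: `U = LaurentSeries Qb`, `gal σ = coeffMap σ`, `IsK = IsKummer1 M ℓ`,
`Eqv = KummerEquiv1 M ℓ`, `X = Additive (Gamma1 M) →+ ZMod ℓ`, `red = ` reduction mod `ℓ`,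
`theta u = ` the character of (the image in `ℂ((q))` of) `u`, `heckeT p ζ = heckeMulT1 p ζ`,
`diam p = ` the diamond operator `⟨p⟩`. -/
structure KummerData1 (M : ℕ) (L : HeckeLat) (ℓ : ℕ) : Type 1 where
  U : Type
  [instU : CommMonoid U]
  gal : GQ → U → U
  gal_one : ∀ u, gal 1 u = u
  gal_mul : ∀ σ τ u, gal (σ * τ) u = gal σ (gal τ u)
  gal_map_mul : ∀ σ u v, gal σ (u * v) = gal σ u * gal σ v
  IsK : U → Prop
  Eqv : U → U → Prop
  isK_mul : ∀ u v, IsK u → IsK v → IsK (u * v)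
  isK_gal : ∀ σ u, IsK u → IsK (gal σ u)
  eqv_gal : ∀ σ u v, IsK u → IsK v → Eqv u v → Eqv (gal σ u) (gal σ v)
  level : ∀ u, IsK u → ∃ F : IntermediateField ℚ Qb, FiniteDimensional ℚ F ∧
    ∀ σ : GQ, (∀ x ∈ F, σ x = x) → gal σ u = u
  /- the lattice mod `ℓ` -/
  X : Type
  [instX : AddCommGroup X]
  red : L.Lam →+ X
  red_eq_zero_iff : ∀ x, red x = 0 ↔ ∃ y, x = (ℓ : ℤ) • y
  /- the class of a Kummer function (junk outside `IsK`) -/
  theta : U → X
  theta_mul : ∀ u v, IsK u → IsK v → theta (u * v) = theta u + theta v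
  theta_eq_iff : ∀ u v, IsK u → IsK v → (theta u = theta v ↔ Eqv u v)
  theta_mem : ∀ u, IsK u → ∃ x, red x = theta u
  theta_surj : ∀ x, ∃ u, IsK u ∧ theta u = red x
  /- Hecke operators -/
  heckeT : ℕ → Qbˣ → U → U
  isK_heckeT : ∀ (p : ℕ) (ζ : Qbˣ), p.Prime → ¬ p ∣ M → IsPrimitiveRoot ζ p →
    ∀ u, IsK u → IsK (heckeT p ζ u)
  gal_heckeT : ∀ (σ : GQ) (p : ℕ) (ζ : Qbˣ), p.Prime → ¬ p ∣ M → IsPrimitiveRoot ζ p →
    ∀ u, IsK u → Eqv (gal σ (heckeT p ζ u))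
      (heckeT p (Units.map ((σ : Qb →+* Qb) : Qb →* Qb) ζ) (gal σ u))
  theta_heckeT : ∀ (p : ℕ) (ζ : Qbˣ), p.Prime → ¬ p ∣ M → IsPrimitiveRoot ζ p →
    ∀ u x, IsK u → theta u = red x → theta (heckeT p ζ u) = red (L.T p x)
  /- diamond operators -/
  diam : ℕ → U → U
  isK_diam : ∀ p : ℕ, p.Prime → ¬ p ∣ M → ∀ u, IsK u → IsK (diam p u)
  gal_diam : ∀ (σ : GQ) (p : ℕ), p.Prime → ¬ p ∣ M →
    ∀ u, IsK u → Eqv (gal σ (diam p u)) (diam p (gal σ u))
  theta_diam : ∀ p : ℕ, p.Prime → ¬ p ∣ M →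
    ∀ u x, IsK u → theta u = red x → theta (diam p u) = red (L.D p x)
  /- good reduction (G1-D/E/F) -/
  unram : ∀ p : ℕ, p.Prime → ¬ p ∣ M * ℓ → ∀ A : ValuationSubring Qb, A.LiesOverPrime p →
    ∀ σ ∈ A.inertiaSubgroupIn ℚ, ∀ u, IsK u → Eqv u (gal σ u)
  frob : ∀ (p : ℕ) (ζ : Qbˣ), p.Prime → ¬ p ∣ M * ℓ → IsPrimitiveRoot ζ p →
    ∀ A : ValuationSubring Qb, A.LiesOverPrime p → ∀ σ : GQ, A.IsFrobeniusAt σ p →
      ∀ w, IsK w → Eqv (gal σ w * (diam p (gal σ⁻¹ w)) ^ p) (heckeT p ζ w)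

attribute [instance] KummerData1.instU KummerData1.instX

/-- A nonzero joint eigenvector of the `T_p`, `⟨p⟩` (`p ∤ M`) in `k_Λ ⊗ Lam`. -/
def HasEigen (M : ℕ) (L : HeckeLat) (Λ : ValuationSubring Qb) (t d : ℕ → Qb) : Prop :=
  ∃ x : kk Λ ⊗[ℤ] L.Lam, x ≠ 0 ∧ ∀ p : ℕ, p.Prime → ¬ p ∣ M →
    (L.T p).baseChange (kk Λ) x = res Λ (t p) • x ∧
    (L.D p).baseChange (kk Λ) x = res Λ (d p) • x

end Fermat.Agent.G1.H
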