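import Fermat.Agent.G1.H.Iface

/-!
# G1-H, file Level: `KummerData1 M L ℓ` gives `GalData M L ℓ`

Port of `Fermat/Agent/GR/I/Level.lean` + `Fermat/Agent/GR/I/Abstract.lean` (one level only, with
diamond operators).
-/

set_option autoImplicit false

namespace Fermat.Agent.G1.H

open Fermat.Agent.S48

theorem Level_exists_primitiveRoot (p : ℕ) [NeZero p] : ∃ ζ : Qbˣ, IsPrimitiveRoot ζ p := by
  obtain ⟨ζ, hζ⟩ := HasEnoughRootsOfUnity.exists_primitiveRoot Qb p
  exact ⟨hζ.isUnit (NeZero.ne p) |>.unit, IsPrimitiveRoot.coe_units_iff.mp (by simpa using hζ)⟩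

theorem Level_isPrimitiveRoot_map (σ : GQ) {p : ℕ} {ζ : Qbˣ} (hζ : IsPrimitiveRoot ζ p) :
    IsPrimitiveRoot (Units.map ((σ : Qb →+* Qb) : Qb →* Qb) ζ) p := by
  rw [← IsPrimitiveRoot.coe_units_iff] at hζ ⊢
  exact hζ.map_of_injective (f := (σ : Qb →+* Qb)) (RingHom.injective _)

namespace KummerData1

variable {M ℓ : ℕ} {L : HeckeLat} (K : KummerData1 M L ℓ)

open Classical in
/-- The action of `σ` on classes of Kummer functions, transported to `X`. -/
noncomputable def act (σ : GQ) (ψ : K.X) : K.X :=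
  if h : ∃ u, K.IsK u ∧ K.theta u = ψ then K.theta (K.gal σ h.choose) else 0

theorem act_theta (σ : GQ) {u : K.U} (hu : K.IsK u) :
    K.act σ (K.theta u) = K.theta (K.gal σ u) := by
  have h : ∃ v, K.IsK v ∧ K.theta v = K.theta u := ⟨u, hu, rfl⟩
  rw [act, dif_pos h]
  obtain ⟨h1, h2⟩ := h.choose_spec
  rw [K.theta_eq_iff _ _ (K.isK_gal σ _ h1) (K.isK_gal σ _ hu)]
  exact K.eqv_gal σ _ _ h1 hu ((K.theta_eq_iff _ _ h1 hu).mp h2)

theorem act_red (σ : GQ) (x : L.Lam) : ∃ y, K.red y = K.act σ (K.red x) := by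
  obtain ⟨u, hu, hux⟩ := K.theta_surj x
  rw [← hux, K.act_theta σ hu]
  exact K.theta_mem _ (K.isK_gal σ _ hu)

theorem act_add (σ : GQ) (x y : L.Lam) :
    K.act σ (K.red (x + y)) = K.act σ (K.red x) + K.act σ (K.red y) := by
  obtain ⟨u, hu, hux⟩ := K.theta_surj x
  obtain ⟨v, hv, hvy⟩ := K.theta_surj y
  rw [map_add, ← hux, ← hvy, ← K.theta_mul u v hu hv, K.act_theta σ (K.isK_mul u v hu hv),
    K.act_theta σ hu, K.act_theta σ hv, K.gal_map_mul,
    K.theta_mul _ _ (K.isK_gal σ _ hu) (K.isK_gal σ _ hv)]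

theorem act_one (x : L.Lam) : K.act 1 (K.red x) = K.red x := by
  obtain ⟨u, hu, hux⟩ := K.theta_surj x
  rw [← hux, K.act_theta 1 hu, K.gal_one]

theorem act_mul (σ τ : GQ) (x : L.Lam) :
    K.act (σ * τ) (K.red x) = K.act σ (K.act τ (K.red x)) := by
  obtain ⟨u, hu, hux⟩ := K.theta_surj x
  rw [← hux, K.act_theta _ hu, K.act_theta τ hu, K.act_theta σ (K.isK_gal τ _ hu), K.gal_mul]

theorem act_heckeT {p : ℕ} (hp : p.Prime) (hpM : ¬ p ∣ M) (σ : GQ)
    (x y : L.Lam) (hy : K.red y = K.act σ (K.red x)) :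
    K.red (L.T p y) = K.act σ (K.red (L.T p x)) := by
  have : NeZero p := ⟨hp.ne_zero⟩
  obtain ⟨ζ, hζ⟩ := Level_exists_primitiveRoot p
  obtain ⟨u, hu, hux⟩ := K.theta_surj x
  rw [← hux, K.act_theta σ hu] at hy
  have hζ' := Level_isPrimitiveRoot_map σ hζ
  have hgu := K.isK_gal σ _ hu
  rw [← K.theta_heckeT p ζ hp hpM hζ u x hu hux, K.act_theta σ (K.isK_heckeT p ζ hp hpM hζ u hu),
    (K.theta_eq_iff _ _ (K.isK_gal σ _ (K.isK_heckeT p ζ hp hpM hζ u hu))
      (K.isK_heckeT p _ hp hpM hζ' _ hgu)).mpr (K.gal_heckeT σ p ζ hp hpM hζ u hu)]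
  exact (K.theta_heckeT p _ hp hpM hζ' _ y hgu hy.symm).symm

theorem act_diam {p : ℕ} (hp : p.Prime) (hpM : ¬ p ∣ M) (σ : GQ)
    (x y : L.Lam) (hy : K.red y = K.act σ (K.red x)) :
    K.red (L.D p y) = K.act σ (K.red (L.D p x)) := by
  obtain ⟨u, hu, hux⟩ := K.theta_surj x
  rw [← hux, K.act_theta σ hu] at hy
  have hgu := K.isK_gal σ _ hu
  rw [← K.theta_diam p hp hpM u x hu hux, K.act_theta σ (K.isK_diam p hp hpM u hu),
    (K.theta_eq_iff _ _ (K.isK_gal σ _ (K.isK_diam p hp hpM u hu))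
      (K.isK_diam p hp hpM _ hgu)).mpr (K.gal_diam σ p hp hpM u hu)]
  exact (K.theta_diam p hp hpM _ y hgu hy.symm).symm

theorem act_level :
    ∃ F : IntermediateField ℚ Qb, FiniteDimensional ℚ F ∧
      ∀ σ : GQ, (∀ x ∈ F, σ x = x) → ∀ x, K.act σ (K.red x) = K.red x := by
  classical
  obtain ⟨S, hS⟩ := (Module.finite_def (R := ℤ) (M := L.Lam)).mp inferInstance
  choose u hu hux using fun i : S => K.theta_surj (i : L.Lam)
  choose F hF hFσ using fun i => K.level (u i) (hu i)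
  refine ⟨⨆ i, F i, IntermediateField.finiteDimensional_iSup_of_finite, fun σ hσ x => ?_⟩
  have h : (AddMonoidHom.mk' (fun x => K.act σ (K.red x)) (K.act_add σ)).toIntLinearMap =
      K.red.toIntLinearMap := by
    refine LinearMap.ext_on hS fun y hy => ?_
    show K.act σ (K.red y) = K.red y
    rw [← hux ⟨y, hy⟩, K.act_theta σ (hu ⟨y, hy⟩),
      hFσ ⟨y, hy⟩ σ fun x hx => hσ x ((le_iSup F ⟨y, hy⟩ : F ⟨y, hy⟩ ≤ ⨆ i, F i) hx)]
  exact congrArg (fun f : L.Lam →ₗ[ℤ] K.X => f x) h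

theorem act_unram {p : ℕ} (hp : p.Prime) (hpM : ¬ p ∣ M * ℓ) (A : ValuationSubring Qb)
    (hA : A.LiesOverPrime p) (σ : GQ) (hσ : σ ∈ A.inertiaSubgroupIn ℚ) (x : L.Lam) :
    K.act σ (K.red x) = K.red x := by
  obtain ⟨u, hu, hux⟩ := K.theta_surj x
  rw [← hux, K.act_theta σ hu]
  exact ((K.theta_eq_iff _ _ hu (K.isK_gal σ _ hu)).mpr (K.unram p hp hpM A hA σ hσ u hu)).symm

theorem isK_pow {u : K.U} (hu : K.IsK u) (e : ℕ) : K.IsK (u ^ (e + 1)) := by
  induction e with
  | zero => simpa using hu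
  | succ e ih =>
    rw [pow_succ]
    exact K.isK_mul _ _ ih hu

theorem theta_pow {u : K.U} (hu : K.IsK u) (e : ℕ) :
    K.theta (u ^ (e + 1)) = (e + 1) • K.theta u := by
  induction e with
  | zero => simp
  | succ e ih =>
    rw [pow_succ, K.theta_mul _ _ (K.isK_pow hu e) hu, ih, succ_nsmul (K.theta u) (e + 1)]

theorem act_frob {p : ℕ} (hp : p.Prime) (hpM : ¬ p ∣ M * ℓ) (A : ValuationSubring Qb)
    (hA : A.LiesOverPrime p) (σ : GQ) (hσ : A.IsFrobeniusAt σ p) (x y : L.Lam)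
    (hy : K.red y = K.act σ (K.red x)) :
    K.act σ (K.red y) - K.red (L.T p y) + (p : ℤ) • K.red (L.D p x) = 0 := by
  have : NeZero p := ⟨hp.ne_zero⟩
  have hpM' : ¬ p ∣ M := fun h => hpM (Dvd.dvd.mul_right h ℓ)
  obtain ⟨ζ, hζ⟩ := Level_exists_primitiveRoot p
  obtain ⟨u, hu, hux⟩ := K.theta_surj x
  rw [← hux, K.act_theta σ hu] at hy
  have hw := K.isK_gal σ _ hu
  have hes := K.frob p ζ hp hpM hζ A hA σ hσ _ hw
  have hinv : K.gal σ⁻¹ (K.gal σ u) = u := by rw [← K.gal_mul, inv_mul_cancel, K.gal_one]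
  rw [hinv] at hes
  have hd := K.isK_diam p hp hpM' u hu
  obtain ⟨e, rfl⟩ : ∃ e, p = e + 1 := ⟨p - 1, (Nat.succ_pred_eq_of_pos hp.pos).symm⟩
  have h1 := (K.theta_eq_iff _ _ (K.isK_mul _ _ (K.isK_gal σ _ hw) (K.isK_pow hd e))
    (K.isK_heckeT _ ζ hp hpM' hζ _ hw)).mpr hes
  rw [K.theta_mul _ _ (K.isK_gal σ _ hw) (K.isK_pow hd e),
    K.theta_heckeT _ ζ hp hpM' hζ _ y hw hy.symm, K.theta_pow hd e,
    K.theta_diam _ hp hpM' u x hu hux] at h1
  rw [hy, K.act_theta σ hw, ← h1, natCast_zsmul]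
  abel

/-! ### linear lifts -/

/-- `x ↦ σ (red x)` as an additive map. -/
noncomputable def actHom (σ : GQ) : L.Lam →+ K.X :=
  AddMonoidHom.mk' (fun x => K.act σ (K.red x)) (K.act_add σ)

@[simp] theorem actHom_apply (σ : GQ) (x : L.Lam) : K.actHom σ x = K.act σ (K.red x) := rfl

/-- The lifting property: additive maps into the image of `red` lift to endomorphisms of `Lam`,
and endomorphisms which agree after `red` are congruent mod `ℓ`.  It holds if `Lam` is free, and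
if `red` is injective. -/
def HasLifts : Prop :=
  (∀ f : L.Lam →+ K.X, (∀ x, ∃ y, K.red y = f x) →
    ∃ G : Module.End ℤ L.Lam, ∀ x, K.red (G x) = f x) ∧
  ∀ f g : Module.End ℤ L.Lam, (∀ x, K.red (f x) = K.red (g x)) → EndCong ℓ f g

theorem hasLifts_of_free [Module.Free ℤ L.Lam] : K.HasLifts := by
  classical
  let b := Module.Free.chooseBasis ℤ L.Lam
  refine ⟨fun f hf => ?_, fun f g h => ?_⟩
  · choose y hy using fun i => hf (b i)
    refine ⟨b.constr ℤ y, fun x => ?_⟩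
    have h : (K.red.toIntLinearMap ∘ₗ (b.constr ℤ y)) = f.toIntLinearMap := by
      refine b.ext fun i => ?_
      simp [hy i]
    exact congrArg (fun f : L.Lam →ₗ[ℤ] K.X => f x) h
  · have h1 : ∀ i, ∃ y, (f - g) (b i) = (ℓ : ℤ) • y := by
      intro i
      apply (K.red_eq_zero_iff _).mp
      rw [LinearMap.sub_apply, map_sub, h, sub_self]
    choose y hy using h1
    refine ⟨b.constr ℤ y, b.ext fun i => ?_⟩
    rw [hy i, LinearMap.smul_apply, Module.Basis.constr_basis]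

theorem hasLifts_of_injective (hinj : Function.Injective K.red) : K.HasLifts := by
  refine ⟨fun f hf => ?_, fun f g h => ?_⟩
  · choose G hG using hf
    refine ⟨(AddMonoidHom.mk' G fun x y => hinj ?_).toIntLinearMap, fun x => hG x⟩
    rw [map_add, hG, hG, hG, map_add]
  · refine ⟨0, ?_⟩
    rw [smul_zero, sub_eq_zero]
    exact LinearMap.ext fun x => hinj (h x)

variable (hK : K.HasLifts)
include hK

theorem exists_lift (σ : GQ) :
    ∃ G : Module.End ℤ L.Lam, ∀ x, K.red (G x) = K.act σ (K.red x) :=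
  hK.1 (K.actHom σ) (K.act_red σ)

/-- A `ℤ`-linear lift of the action of `σ`. -/
noncomputable def galLift (σ : GQ) : Module.End ℤ L.Lam := (K.exists_lift hK σ).choose

theorem red_galLift (σ : GQ) (x : L.Lam) :
    K.red (K.galLift hK σ x) = K.act σ (K.red x) := (K.exists_lift hK σ).choose_spec x

theorem endCong_of_red (f g : Module.End ℤ L.Lam)
    (h : ∀ x, K.red (f x) = K.red (g x)) : EndCong ℓ f g := hK.2 f g h

/-- The interface. -/
noncomputable def toGalData : GalData M L ℓ where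
  gal := K.galLift hK
  gal_one := K.endCong_of_red hK _ _ fun x => by
    rw [red_galLift, K.act_one, Module.End.one_apply]
  gal_mul := fun σ τ => K.endCong_of_red hK _ _ fun x => by
    rw [red_galLift, K.act_mul, Module.End.mul_apply, red_galLift, red_galLift]
  gal_T := fun σ p hp hpM => K.endCong_of_red hK _ _ fun x => by
    rw [Module.End.mul_apply, Module.End.mul_apply, red_galLift]
    exact (K.act_heckeT hp hpM σ x _ (K.red_galLift hK σ x)).symm
  gal_D := fun σ p hp hpM => K.endCong_of_red hK _ _ fun x => by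
    rw [Module.End.mul_apply, Module.End.mul_apply, red_galLift]
    exact (K.act_diam hp hpM σ x _ (K.red_galLift hK σ x)).symm
  gal_level := by
    obtain ⟨F, hF, h⟩ := K.act_level
    exact ⟨F, hF, fun σ hσ => K.endCong_of_red hK _ _ fun x => by
      rw [red_galLift, h σ hσ, Module.End.one_apply]⟩
  gal_unram := fun p hp hpM A hA σ hσ => K.endCong_of_red hK _ _ fun x => by
    rw [red_galLift, K.act_unram hp hpM A hA σ hσ, Module.End.one_apply]
  gal_frob := fun p hp hpM A hA σ hσ => K.endCong_of_red hK _ _ fun x => by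
    have h := K.act_frob hp hpM A hA σ hσ x _ (K.red_galLift hK σ x)
    rw [LinearMap.add_apply, LinearMap.sub_apply, Module.End.mul_apply, Module.End.mul_apply,
      LinearMap.smul_apply, map_add, map_sub, map_zsmul, red_galLift, h,
      LinearMap.zero_apply, map_zero]

end KummerData1

theorem nonempty_galData {M ℓ : ℕ} (L : HeckeLat) (K : KummerData1 M L ℓ) (hK : K.HasLifts) :
    Nonempty (GalData M L ℓ) :=
  ⟨K.toGalData hK⟩

end Fermat.Agent.G1.H
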