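import Fermat.Agent.G1.H.Res

/-!
# G1-H, file Quad: `GalData` + a joint eigenvector give `HasQuadModule`

`V = k_Λ ⊗ Lam`, `R σ = (gal σ).baseChange`, `W = ` the joint eigenspace.
-/

set_option autoImplicit false

open scoped TensorProduct

namespace Fermat.Agent.G1.H

open Fermat.Agent.S48

theorem Quad_baseChange_one (k : Type) [CommRing k] (Lam : Type) [AddCommGroup Lam] :
    (1 : Module.End ℤ Lam).baseChange k = 1 :=
  LinearMap.baseChange_id

theorem Quad_baseChange_mul (k : Type) [CommRing k] {Lam : Type} [AddCommGroup Lam]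
    (f g : Module.End ℤ Lam) : (f * g).baseChange k = f.baseChange k * g.baseChange k :=
  LinearMap.baseChange_comp (A := k) g f

theorem Quad_baseChange_zsmul (k : Type) [CommRing k] {Lam : Type} [AddCommGroup Lam]
    (n : ℤ) (f : Module.End ℤ Lam) : (n • f).baseChange k = (n : k) • f.baseChange k := by
  rw [LinearMap.baseChange_smul]
  exact (Int.cast_smul_eq_zsmul k n (f.baseChange k)).symm

/-- congruent endomorphisms have the same base change to a ring in which `m = 0`. -/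
theorem baseChange_eq_of_endCong {Lam : Type} [AddCommGroup Lam] {k : Type} [CommRing k] {m : ℕ}
    (hm : (m : k) = 0) {f g : Module.End ℤ Lam} (h : EndCong m f g) :
    f.baseChange k = g.baseChange k := by
  obtain ⟨e, he⟩ := h
  have h1 : f = g + (m : ℤ) • e := by rw [← he]; abel
  rw [h1, LinearMap.baseChange_add, Quad_baseChange_zsmul, Int.cast_natCast, hm, zero_smul,
    add_zero]

/-! ### the abstract version, over an arbitrary field `k` -/

section abstract

variable (L : HeckeLat) (k : Type) [Field k] {M ℓ : ℕ}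

/-- the joint eigenspace (abstract version). -/
noncomputable def Quad_eigen (M : ℕ) (tt dd : ℕ → k) : Submodule k (k ⊗[ℤ] L.Lam) :=
  ⨅ (p : ℕ) (_ : p.Prime) (_ : ¬ p ∣ M),
    LinearMap.ker ((L.T p).baseChange k - tt p • LinearMap.id) ⊓
      LinearMap.ker ((L.D p).baseChange k - dd p • LinearMap.id)

theorem Quad_mem_eigen (M : ℕ) (tt dd : ℕ → k) (x : k ⊗[ℤ] L.Lam) :
    x ∈ Quad_eigen L k M tt dd ↔ ∀ p : ℕ, p.Prime → ¬ p ∣ M →
      (L.T p).baseChange k x = tt p • x ∧ (L.D p).baseChange k x = dd p • x := by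
  simp only [Quad_eigen, Submodule.mem_iInf, Submodule.mem_inf, LinearMap.mem_ker,
    LinearMap.sub_apply, LinearMap.smul_apply, LinearMap.id_apply, sub_eq_zero]

theorem Quad_exists_gal (hm : (ℓ : k) = 0) (G : GalData M L ℓ) :
    ∃ R : GQ →* Module.End k (k ⊗[ℤ] L.Lam), ∀ σ, R σ = (G.gal σ).baseChange k := by
  refine ⟨{ toFun := fun σ => (G.gal σ).baseChange k, map_one' := ?_, map_mul' := ?_ },
    fun σ => rfl⟩
  · rw [baseChange_eq_of_endCong hm G.gal_one]
    exact Quad_baseChange_one k L.Lam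
  · intro σ τ
    rw [baseChange_eq_of_endCong hm (G.gal_mul σ τ)]
    exact Quad_baseChange_mul k _ _

theorem Quad_gal_mem_eigen (hm : (ℓ : k) = 0) (G : GalData M L ℓ) (tt dd : ℕ → k) (σ : GQ)
    (x : k ⊗[ℤ] L.Lam) (hx : x ∈ Quad_eigen L k M tt dd) :
    (G.gal σ).baseChange k x ∈ Quad_eigen L k M tt dd := by
  rw [Quad_mem_eigen] at hx ⊢
  intro p hp hpM
  obtain ⟨h1, h2⟩ := hx p hp hpM
  have e1 := baseChange_eq_of_endCong hm (G.gal_T σ p hp hpM)
  have e2 := baseChange_eq_of_endCong hm (G.gal_D σ p hp hpM)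
  rw [Quad_baseChange_mul, Quad_baseChange_mul] at e1 e2
  have e1' := LinearMap.congr_fun e1 x
  have e2' := LinearMap.congr_fun e2 x
  rw [Module.End.mul_apply, Module.End.mul_apply] at e1' e2'
  refine ⟨?_, ?_⟩
  · rw [← e1', h1, map_smul]
  · rw [← e2', h2, map_smul]

theorem Quad_abstract (hm : (ℓ : k) = 0) (G : GalData M L ℓ) (tt dd : ℕ → k)
    (x : k ⊗[ℤ] L.Lam) (hx0 : x ≠ 0) (hx : ∀ p : ℕ, p.Prime → ¬ p ∣ M →
      (L.T p).baseChange k x = tt p • x ∧ (L.D p).baseChange k x = dd p • x) :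
    ∃ (W : Type) (_ : AddCommGroup W) (_ : Module k W) (_ : Module.Finite k W)
      (_ : Nontrivial W) (r : GQ →* Module.End k W),
      GaloisFactorsThroughFiniteLevel r ∧
      ∀ p : ℕ, p.Prime → ¬ p ∣ M * ℓ → ∀ A : ValuationSubring Qb, A.LiesOverPrime p →
        (∀ σ ∈ A.inertiaSubgroupIn ℚ, r σ = 1) ∧
        ∀ σ : GQ, A.IsFrobeniusAt σ p →
          r σ * r σ - tt p • r σ + ((p : k) * dd p) • (1 : Module.End k W) = 0 := by
  obtain ⟨R, hR⟩ := Quad_exists_gal L k hm G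
  have hstab : ∀ σ, ∀ w ∈ Quad_eigen L k M tt dd, R σ w ∈ Quad_eigen L k M tt dd :=
    fun σ w hw => by
      rw [hR]
      exact Quad_gal_mem_eigen L k hm G tt dd σ w hw
  let r : GQ →* Module.End k (Quad_eigen L k M tt dd) :=
    { toFun := fun σ => (R σ).restrict (hstab σ)
      map_one' := by
        ext w
        simp
      map_mul' := fun σ τ => by
        ext w
        simp }
  have hr : ∀ σ (w : Quad_eigen L k M tt dd),
      ((r σ w : Quad_eigen L k M tt dd) : k ⊗[ℤ] L.Lam) =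
      (G.gal σ).baseChange k (w : k ⊗[ℤ] L.Lam) := fun σ w => by
    rw [← hR]
    rfl
  have hone : ∀ σ, EndCong ℓ (G.gal σ) 1 → r σ = 1 := fun σ h => by
    ext w
    rw [hr, baseChange_eq_of_endCong hm h, Quad_baseChange_one]
    rfl
  have hnt : Nontrivial (Quad_eigen L k M tt dd) := by
    refine ⟨⟨x, (Quad_mem_eigen L k M tt dd x).2 hx⟩, 0, fun h => hx0 ?_⟩
    exact congrArg Subtype.val h
  refine ⟨Quad_eigen L k M tt dd, inferInstance, inferInstance, inferInstance, hnt, r, ?_, ?_⟩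
  · obtain ⟨F, hF, hF'⟩ := G.gal_level
    exact ⟨F, hF, fun σ hσ => hone σ (hF' σ hσ)⟩
  · intro p hp hpM A hA
    refine ⟨fun σ hσ => hone σ (G.gal_unram p hp hpM A hA σ hσ), fun σ hσ => ?_⟩
    have hpM' : ¬ p ∣ M := fun h => hpM (Dvd.dvd.mul_right h ℓ)
    have e := baseChange_eq_of_endCong hm (G.gal_frob p hp hpM A hA σ hσ)
    rw [LinearMap.baseChange_add, LinearMap.baseChange_sub, Quad_baseChange_mul,
      Quad_baseChange_mul, LinearMap.baseChange_zero, Quad_baseChange_zsmul] at e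
    ext w
    have ew := LinearMap.congr_fun e (w : k ⊗[ℤ] L.Lam)
    have hw := (Quad_mem_eigen L k M tt dd _).1 w.2 p hp hpM'
    have hw' := (Quad_mem_eigen L k M tt dd _).1 (r σ w).2 p hp hpM'
    rw [hr] at hw'
    rw [LinearMap.add_apply, LinearMap.sub_apply, Module.End.mul_apply, Module.End.mul_apply,
      LinearMap.smul_apply, hw.2, hw'.1, LinearMap.zero_apply, Int.cast_natCast] at ew
    simp only [LinearMap.add_apply, LinearMap.sub_apply, Module.End.mul_apply,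
      LinearMap.smul_apply, Module.End.one_apply, LinearMap.zero_apply, Submodule.coe_add,
      Submodule.coe_sub, Submodule.coe_smul, Submodule.coe_zero, hr]
    rw [← ew, mul_smul]

end abstract

variable {M ℓ : ℕ} (L : HeckeLat) (Λ : ValuationSubring Qb)

/-- the joint eigenspace. -/
noncomputable def eigenW (M : ℕ) (t d : ℕ → Qb) : Submodule (kk Λ) (kk Λ ⊗[ℤ] L.Lam) :=
  ⨅ (p : ℕ) (_ : p.Prime) (_ : ¬ p ∣ M),
    LinearMap.ker ((L.T p).baseChange (kk Λ) - res Λ (t p) • LinearMap.id) ⊓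
      LinearMap.ker ((L.D p).baseChange (kk Λ) - res Λ (d p) • LinearMap.id)

theorem mem_eigenW (M : ℕ) (t d : ℕ → Qb) (x : kk Λ ⊗[ℤ] L.Lam) :
    x ∈ eigenW L Λ M t d ↔ ∀ p : ℕ, p.Prime → ¬ p ∣ M →
      (L.T p).baseChange (kk Λ) x = res Λ (t p) • x ∧
      (L.D p).baseChange (kk Λ) x = res Λ (d p) • x := by
  exact Quad_mem_eigen L (kk Λ) M (fun p => res Λ (t p)) (fun p => res Λ (d p)) x

/-- the Galois action on `V`. -/
theorem exists_galV (hΛ : Λ.LiesOverPrime ℓ) (G : GalData M L ℓ) :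
    ∃ R : GQ →* Module.End (kk Λ) (kk Λ ⊗[ℤ] L.Lam), ∀ σ, R σ = (G.gal σ).baseChange (kk Λ) := by
  exact Quad_exists_gal L (kk Λ) (natCast_kk_eq_zero Λ hΛ) G

theorem galV_mem_eigenW (hΛ : Λ.LiesOverPrime ℓ) (G : GalData M L ℓ) (t d : ℕ → Qb) (σ : GQ)
    (x : kk Λ ⊗[ℤ] L.Lam) (hx : x ∈ eigenW L Λ M t d) :
    (G.gal σ).baseChange (kk Λ) x ∈ eigenW L Λ M t d := by
  exact Quad_gal_mem_eigen L (kk Λ) (natCast_kk_eq_zero Λ hΛ) G (fun p => res Λ (t p))
    (fun p => res Λ (d p)) σ x hx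

theorem hasQuadModule_of_galData (hΛ : Λ.LiesOverPrime ℓ) (G : GalData M L ℓ) (t d : ℕ → Qb)
    (hd : ∀ p, d p ∈ Λ) (h : HasEigen M L Λ t d) :
    HasQuadModule M ℓ Λ t (fun p => (p : Qb) * d p) := by
  obtain ⟨x, hx0, hx⟩ := h
  obtain ⟨W, i1, i2, i3, i4, r, h1, h2⟩ := Quad_abstract L (kk Λ) (natCast_kk_eq_zero Λ hΛ) G
    (fun p => res Λ (t p)) (fun p => res Λ (d p)) x hx0 hx
  refine ⟨W, i1, i2, i3, i4, r, h1, fun p hp hpM A hA => ⟨(h2 p hp hpM A hA).1, fun σ hσ => ?_⟩⟩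
  have hres : res Λ ((p : Qb) * d p) = (p : kk Λ) * res Λ (d p) := by
    rw [res_mul Λ (natCast_mem Λ p) (hd p), res_natCast]
  rw [hres]
  exact (h2 p hp hpM A hA).2 σ hσ

end Fermat.Agent.G1.H
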