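import Fermat.Agent.G1.H.NV
import Fermat.Agent.G1.H.Quad
import Fermat.Agent.G1.H.Level

/-!
# G1-H, file Main: the export of G1 in hypothesis form

* `hasQuadModule_of_eigen` : `KummerData1` + `HasEigen` give `HasQuadModule` (the route used:
  `Lam = V_ℓ`, `red` injective, `HasEigen` from S48-PER).
* `g1Main_of_eigen` : `G1MainStatement` from these data at all levels.
* `hasQuadModule_of`, `g1Main_of` : the variant with a free lattice and the period map.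
-/

set_option autoImplicit false

open CongruenceSubgroup UpperHalfPlane ModularFormClass
open scoped MatrixGroups ModularForm TensorProduct

namespace Fermat.Agent.G1.H

open Fermat.Agent.S48

/-- `KummerData1` + a joint eigenvector give the quadratic Galois module. -/
theorem hasQuadModule_of_eigen {M : ℕ} [NeZero M] (L : HeckeLat) {ℓ : ℕ}
    (K : KummerData1 M L ℓ) (hK : K.HasLifts) (χ : DirichletCharacter Qb M) (t : ℕ → Qb)
    (Λ : ValuationSubring Qb) (hΛ : Λ.LiesOverPrime ℓ)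
    (hE : HasEigen M L Λ t (fun p => χ (p : ZMod M))) :
    HasQuadModule M ℓ Λ t (fun p => (p : Qb) * χ (p : ZMod M)) := by
  obtain ⟨G⟩ := nonempty_galData L K hK
  exact hasQuadModule_of_galData L Λ hΛ G t (fun p => χ (p : ZMod M))
    (fun p => dirichlet_mem Λ χ _) hE

/-- The non-vanishing statement consumed from S48-PER, for a family of modules `L M ℓ`. -/
def EigenStatement (L : ℕ → ℕ → HeckeLat) : Prop :=
  ∀ (M : ℕ) [NeZero M] (g : CuspForm (Gamma1 M) 2) (χ : DirichletCharacter Qb M)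
    (ι : Qb →+* ℂ) (b t : ℕ → Qb) (ℓ : ℕ) (Λ : ValuationSubring Qb),
    ℓ.Prime → Λ.LiesOverPrime ℓ → HasNeb M 2 (fun x => ι (χ x)) g →
    (∀ n : ℕ, ι (b n) = ModularFormClass.qCoeff g n) → (∀ n : ℕ, b n ∈ Λ) →
    (∃ n : ℕ, b n ∉ Λ.nonunits) → (∀ p : ℕ, t p ∈ Λ) →
    (∀ p : ℕ, p.Prime → ¬ p ∣ M → ∀ n : ℕ,
      b (p * n) + (p : Qb) * χ (p : ZMod M) * (if p ∣ n then b (n / p) else 0) - t p * b n
        ∈ Λ.nonunits) →
    HasEigen M (L M ℓ) Λ t (fun p => χ (p : ZMod M))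

/-- `G1MainStatement` from the upstream data at all levels (`Lam = V_ℓ`). -/
theorem g1Main_of_eigen (L : ℕ → ℕ → HeckeLat) (hE : EigenStatement L)
    (K : ∀ (M : ℕ) [NeZero M] (ℓ : ℕ), ℓ.Prime → KummerData1 M (L M ℓ) ℓ)
    (hK : ∀ (M : ℕ) [NeZero M] (ℓ : ℕ) (hℓ : ℓ.Prime), (K M ℓ hℓ).HasLifts) :
    G1MainStatement :=
  fun M _ g χ ι b t ℓ Λ hℓ hΛ hneb hb hbΛ hb0 ht hcong =>
    hasQuadModule_of_eigen (L M ℓ) (K M ℓ hℓ) (hK M ℓ hℓ) χ t Λ
      hΛ (hE M g χ ι b t ℓ Λ hℓ hΛ hneb hb hbΛ hb0 ht hcong)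

/-- The conclusion of `G1MainStatement` at one level `M` and one prime `ℓ`, from the period data
and the Kummer data (free lattice). -/
theorem hasQuadModule_of {M : ℕ} [NeZero M] (L : HeckeLat) [Module.Free ℤ L.Lam]
    (P : PerData M L) {ℓ : ℕ}
    (K : KummerData1 M L ℓ) (g : CuspForm (Gamma1 M) 2) (χ : DirichletCharacter Qb M)
    (ι : Qb →+* ℂ) (b t : ℕ → Qb) (Λ : ValuationSubring Qb) (hΛ : Λ.LiesOverPrime ℓ)
    (hneb : HasNeb M 2 (fun x => ι (χ x)) g)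
    (hb : ∀ n : ℕ, ι (b n) = qCoeff g n) (hbΛ : ∀ n : ℕ, b n ∈ Λ)
    (hb0 : ∃ n : ℕ, b n ∉ Λ.nonunits) (ht : ∀ p : ℕ, t p ∈ Λ)
    (hcong : ∀ p : ℕ, p.Prime → ¬ p ∣ M → ∀ n : ℕ,
      b (p * n) + (p : Qb) * χ (p : ZMod M) * (if p ∣ n then b (n / p) else 0) - t p * b n
        ∈ Λ.nonunits) :
    HasQuadModule M ℓ Λ t (fun p => (p : Qb) * χ (p : ZMod M)) :=
  hasQuadModule_of_eigen L K K.hasLifts_of_free χ t Λ hΛ
    (hasEigen_of_perData Λ L P g χ ι b t hneb hb hbΛ hb0 ht hcong)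

end Fermat.Agent.G1.H
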