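import Fermat.Agent.G1.H.QExp
import Fermat.Agent.G1.H.Formal

/-!
# G1-H, file Ops: the Hecke operators on the nebentypus subspace, from `PerData`
-/

set_option autoImplicit false

open CongruenceSubgroup UpperHalfPlane ModularFormClass
open scoped MatrixGroups ModularForm TensorProduct

namespace Fermat.Agent.G1.H

open Fermat.Agent.S48

variable {M : ℕ} [NeZero M] {L : HeckeLat}

/-- `T_p` as an endomorphism of the nebentypus subspace (linear because `per` is injective). -/
theorem exists_heckeOp (P : PerData M L) (χ : ZMod M → ℂ) {p : ℕ} (hp : p.Prime) (hpM : ¬ p ∣ M) :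
    ∃ F : Module.End ℂ (nebSub M χ),
      (∀ (s : nebSub M χ) (n : ℕ), qCoeff (F s : CuspForm (Gamma1 M) 2) n =
        fT ((p : ℂ) * χ (p : ZMod M)) p (fun m => qCoeff (s : CuspForm (Gamma1 M) 2) m) n) ∧
      ∀ s : nebSub M χ, P.per (F s : CuspForm (Gamma1 M) 2) =
        (L.T p).baseChange ℂ (P.per (s : CuspForm (Gamma1 M) 2)) := by
  choose g' hneb hq hper using fun s : nebSub M χ =>
    P.hT p hp hpM χ (s : CuspForm (Gamma1 M) 2) s.2
  refine ⟨{ toFun := fun s => ⟨g' s, hneb s⟩, map_add' := ?_, map_smul' := ?_ }, ?_, ?_⟩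
  · intro s t
    apply Subtype.ext
    apply P.per_inj
    show P.per (g' (s + t)) = P.per (g' s + g' t)
    rw [hper, map_add, hper, hper, Submodule.coe_add, map_add, map_add]
  · intro c s
    apply Subtype.ext
    apply P.per_inj
    show P.per (g' (c • s)) = P.per (c • g' s)
    rw [hper, map_smul, hper, Submodule.coe_smul, map_smul, map_smul]
  · intro s n
    exact hq s n
  · intro s
    exact hper s

/-- two endomorphisms of the nebentypus subspace which act on `q`-expansions as formal Hecke
operators commute. -/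
theorem commute_of_fT (χ : ZMod M → ℂ) {p q : ℕ} (hp : p.Prime) (hq : q.Prime) (c c' : ℂ)
    (hc : p = q → c = c')
    (F F' : Module.End ℂ (nebSub M χ))
    (hF : ∀ (s : nebSub M χ) (n : ℕ), qCoeff (F s : CuspForm (Gamma1 M) 2) n =
        fT c p (fun m => qCoeff (s : CuspForm (Gamma1 M) 2) m) n)
    (hF' : ∀ (s : nebSub M χ) (n : ℕ), qCoeff (F' s : CuspForm (Gamma1 M) 2) n =
        fT c' q (fun m => qCoeff (s : CuspForm (Gamma1 M) 2) m) n) :
    Commute F F' := by
  show F * F' = F' * F
  apply LinearMap.ext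
  intro s
  apply Subtype.ext
  apply eq_of_qCoeff1
  intro n
  show qCoeff ((F (F' s) : nebSub M χ) : CuspForm (Gamma1 M) 2) n =
    qCoeff ((F' (F s) : nebSub M χ) : CuspForm (Gamma1 M) 2) n
  rw [hF, hF']
  have h1 : (fun m => qCoeff ((F' s : nebSub M χ) : CuspForm (Gamma1 M) 2) m) =
      fT c' q (fun m => qCoeff (s : CuspForm (Gamma1 M) 2) m) := funext (hF' s)
  have h2 : (fun m => qCoeff ((F s : nebSub M χ) : CuspForm (Gamma1 M) 2) m) =
      fT c p (fun m => qCoeff (s : CuspForm (Gamma1 M) 2) m) := funext (hF s)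
  rw [h1, h2]
  exact congrFun (fT_comm c c' hp hq hc _) n

end Fermat.Agent.G1.H
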