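import Fermat.Agent.G1.H.Iface

/-!
# G1-H, file Res: API for `S48.res Λ`
-/

set_option autoImplicit false

namespace Fermat.Agent.G1.H

open Fermat.Agent.S48

variable (Λ : ValuationSubring Qb)

theorem res_of_mem {x : Qb} (h : x ∈ Λ) : res Λ x = IsLocalRing.residue Λ ⟨x, h⟩ := by
  unfold res
  rw [dif_pos h]

theorem res_coe (x : Λ) : res Λ (x : Qb) = IsLocalRing.residue Λ x := by
  rw [res_of_mem Λ x.2]

theorem res_add {x y : Qb} (hx : x ∈ Λ) (hy : y ∈ Λ) : res Λ (x + y) = res Λ x + res Λ y := by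
  rw [res_of_mem Λ hx, res_of_mem Λ hy, res_of_mem Λ (add_mem hx hy), ← map_add]
  rfl

theorem res_mul {x y : Qb} (hx : x ∈ Λ) (hy : y ∈ Λ) : res Λ (x * y) = res Λ x * res Λ y := by
  rw [res_of_mem Λ hx, res_of_mem Λ hy, res_of_mem Λ (mul_mem hx hy), ← map_mul]
  rfl

theorem res_natCast (n : ℕ) : res Λ (n : Qb) = (n : kk Λ) := by
  rw [res_of_mem Λ (natCast_mem Λ n), ← map_natCast (IsLocalRing.residue Λ) n]
  rfl

theorem res_eq_zero_iff {x : Qb} (hx : x ∈ Λ) : res Λ x = 0 ↔ x ∈ Λ.nonunits := by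
  rw [res_of_mem Λ hx, IsLocalRing.residue_eq_zero_iff,
    ValuationSubring.mem_nonunits_iff_exists_mem_maximalIdeal]
  exact ⟨fun h => ⟨hx, h⟩, fun ⟨_, h⟩ => h⟩

theorem mem_maximalIdeal_iff (x : Λ) : x ∈ IsLocalRing.maximalIdeal Λ ↔ (x : Qb) ∈ Λ.nonunits := by
  rw [ValuationSubring.mem_nonunits_iff_exists_mem_maximalIdeal]
  exact ⟨fun h => ⟨x.2, h⟩, fun ⟨_, h⟩ => h⟩

theorem natCast_kk_eq_zero {ℓ : ℕ} (h : Λ.LiesOverPrime ℓ) : ((ℓ : ℕ) : kk Λ) = 0 := by
  rw [← res_natCast, res_eq_zero_iff Λ (natCast_mem Λ ℓ)]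
  exact h

/-- the values of a Dirichlet character are integral. -/
theorem dirichlet_mem {M : ℕ} [NeZero M] (χ : DirichletCharacter Qb M) (x : ZMod M) :
    χ x ∈ Λ := by
  by_cases hx : IsUnit x
  · obtain ⟨u, rfl⟩ := hx
    have hpos : 0 < Nat.totient M := Nat.totient_pos.2 (NeZero.pos M)
    have h1 : χ (u : ZMod M) ^ Nat.totient M = 1 := by
      rw [← map_pow, ← Units.val_pow_eq_pow_val, ZMod.pow_totient, Units.val_one, map_one]
    rcases Λ.mem_or_inv_mem (χ (u : ZMod M)) with h | h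
    · exact h
    · have h2 : χ (u : ZMod M) = (χ (u : ZMod M))⁻¹ ^ (Nat.totient M - 1) := by
        have h0 : χ (u : ZMod M) ≠ 0 := by
          intro h0
          rw [h0, zero_pow hpos.ne'] at h1
          exact zero_ne_one h1
        have h3 : χ (u : ZMod M) ^ (Nat.totient M - 1) * χ (u : ZMod M) = 1 := by
          rw [← pow_succ, Nat.sub_add_cancel hpos, h1]
        rw [inv_pow]
        exact eq_inv_of_mul_eq_one_right h3
      rw [h2]
      exact pow_mem h _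
  · rw [χ.map_nonunit hx]
    exact Λ.zero_mem

end Fermat.Agent.G1.H
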