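import Fermat.Agent.G1.H.NVCore
import Fermat.Agent.G1.H.Coord
import Fermat.Agent.G1.H.Res
import Fermat.Agent.G1.H.Ops

/-!
# G1-H, file NV: the eigensystem of a mod `Λ` eigenform occurs in `k_Λ ⊗ Lam`
-/

set_option autoImplicit false
set_option linter.unusedSectionVars false

open CongruenceSubgroup UpperHalfPlane ModularFormClass
open scoped MatrixGroups ModularForm TensorProduct

namespace Fermat.Agent.G1.H

open Fermat.Agent.S48

variable (Λ : ValuationSubring Qb)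

theorem nonunits_add {x y : Qb} (hx : x ∈ Λ.nonunits) (hy : y ∈ Λ.nonunits) :
    x + y ∈ Λ.nonunits := by
  rw [ValuationSubring.mem_nonunits_iff_exists_mem_maximalIdeal] at hx hy ⊢
  obtain ⟨hx1, hx2⟩ := hx
  obtain ⟨hy1, hy2⟩ := hy
  exact ⟨Λ.add_mem _ _ hx1 hy1, (IsLocalRing.maximalIdeal Λ).add_mem hx2 hy2⟩

theorem nonunits_neg {x : Qb} (hx : x ∈ Λ.nonunits) : -x ∈ Λ.nonunits := by
  rw [ValuationSubring.mem_nonunits_iff_exists_mem_maximalIdeal] at hx ⊢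
  obtain ⟨hx1, hx2⟩ := hx
  exact ⟨Λ.neg_mem _ hx1, (IsLocalRing.maximalIdeal Λ).neg_mem hx2⟩

theorem nonunits_zero : (0 : Qb) ∈ Λ.nonunits := by
  rw [ValuationSubring.mem_nonunits_iff_exists_mem_maximalIdeal]
  exact ⟨Λ.zero_mem, (IsLocalRing.maximalIdeal Λ).zero_mem⟩

theorem nonunits_mul_left {c x : Qb} (hc : c ∈ Λ) (hx : x ∈ Λ.nonunits) :
    c * x ∈ Λ.nonunits := by
  rw [ValuationSubring.mem_nonunits_iff_exists_mem_maximalIdeal] at hx ⊢
  obtain ⟨hx1, hx2⟩ := hx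
  exact ⟨Λ.mul_mem _ _ hc hx1, (IsLocalRing.maximalIdeal Λ).mul_mem_left ⟨c, hc⟩ hx2⟩

variable {M : ℕ} [NeZero M]

/-- the forms in the nebentypus subspace all of whose coefficients are in `ι 𝔪_Λ`. -/
def zSub (ι : Qb →+* ℂ) (χ : ZMod M → ℂ) : AddSubgroup (nebSub M χ) where
  carrier := {s | ∃ c : ℕ → Qb, (∀ n, c n ∈ Λ.nonunits) ∧
    ∀ n, ι (c n) = qCoeff (s : CuspForm (Gamma1 M) 2) n}
  add_mem' := by
    rintro s s' ⟨c, hc, hcs⟩ ⟨c', hc', hcs'⟩
    refine ⟨fun n => c n + c' n, fun n => nonunits_add Λ (hc n) (hc' n), fun n => ?_⟩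
    rw [map_add, hcs, hcs', Submodule.coe_add, qCoeff_add1]
  zero_mem' := by
    refine ⟨fun _ => 0, fun _ => nonunits_zero Λ, fun n => ?_⟩
    rw [map_zero, Submodule.coe_zero, qCoeff_zero1]
  neg_mem' := by
    rintro s ⟨c, hc, hcs⟩
    refine ⟨fun n => - c n, fun n => nonunits_neg Λ (hc n), fun n => ?_⟩
    rw [map_neg, hcs, Submodule.coe_neg, qCoeff_neg1]

theorem mem_zSub (ι : Qb →+* ℂ) (χ : ZMod M → ℂ) (s : nebSub M χ) :
    s ∈ zSub Λ ι χ ↔ ∃ c : ℕ → Qb, (∀ n, c n ∈ Λ.nonunits) ∧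
      ∀ n, ι (c n) = qCoeff (s : CuspForm (Gamma1 M) 2) n := Iff.rfl

theorem smul_mem_zSub (ι : Qb →+* ℂ) (χ : ZMod M → ℂ) {c : Qb} (hc : c ∈ Λ) {s : nebSub M χ}
    (hs : s ∈ zSub Λ ι χ) : ι c • s ∈ zSub Λ ι χ := by
  obtain ⟨a, ha, has⟩ := hs
  refine ⟨fun n => c * a n, fun n => nonunits_mul_left Λ hc (ha n), fun n => ?_⟩
  rw [map_mul, has, Submodule.coe_smul, qCoeff_smul1]

/-- an operator acting on `q`-expansions as `fT (ι c) p`, `c ∈ Λ`, preserves `zSub`. -/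
theorem fT_mem_zSub (ι : Qb →+* ℂ) (χ : ZMod M → ℂ) {c : Qb} (hc : c ∈ Λ) (p : ℕ)
    (F : Module.End ℂ (nebSub M χ))
    (hF : ∀ (s : nebSub M χ) (n : ℕ), qCoeff (F s : CuspForm (Gamma1 M) 2) n =
        fT (ι c) p (fun m => qCoeff (s : CuspForm (Gamma1 M) 2) m) n)
    {s : nebSub M χ} (hs : s ∈ zSub Λ ι χ) : F s ∈ zSub Λ ι χ := by
  obtain ⟨a, ha, has⟩ := hs
  refine ⟨fT c p a, fun n => ?_, fun n => ?_⟩
  · rw [fT_apply]
    refine nonunits_add Λ (ha _) (nonunits_mul_left Λ hc ?_)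
    split_ifs
    · exact ha _
    · exact nonunits_zero Λ
  · rw [hF, fT_map]
    simp only [has]

/-- **(NV)** -/
theorem hasEigen_of_perData (L : HeckeLat) [Module.Free ℤ L.Lam] (P : PerData M L)
    (g : CuspForm (Gamma1 M) 2) (χ : DirichletCharacter Qb M)
    (ι : Qb →+* ℂ) (b t : ℕ → Qb)
    (hneb : HasNeb M 2 (fun x => ι (χ x)) g)
    (hb : ∀ n : ℕ, ι (b n) = qCoeff g n) (hbΛ : ∀ n : ℕ, b n ∈ Λ)
    (hb0 : ∃ n : ℕ, b n ∉ Λ.nonunits) (ht : ∀ p : ℕ, t p ∈ Λ)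
    (hcong : ∀ p : ℕ, p.Prime → ¬ p ∣ M → ∀ n : ℕ,
      b (p * n) + (p : Qb) * χ (p : ZMod M) * (if p ∣ n then b (n / p) else 0) - t p * b n
        ∈ Λ.nonunits) :
    HasEigen M L Λ t (fun p => χ (p : ZMod M)) := by
  classical
  set χc : ZMod M → ℂ := fun x => ι (χ x) with hχc
  let Xp : Type := {p : ℕ // p.Prime ∧ ¬ p ∣ M}
  let X : Type := Xp ⊕ Xp
  choose FT hFTq hFTper using fun p : Xp => exists_heckeOp P χc p.2.1 p.2.2
  let F : X → Module.End ℂ (nebSub M χc) :=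
    Sum.elim FT (fun p => ι (χ (p.1 : ZMod M)) • (1 : Module.End ℂ (nebSub M χc)))
  have hF : ∀ x y, Commute (F x) (F y) := by
    rintro (p | p) (q | q)
    · exact commute_of_fT χc p.2.1 q.2.1 _ _ (by intro h; rw [h]) (FT p) (FT q) (hFTq p) (hFTq q)
    · exact (Commute.one_right _).smul_right _
    · exact (Commute.one_left _).smul_left _
    · exact ((Commute.one_left _).smul_left _).smul_right _
  let n := Module.Free.ChooseBasisIndex ℤ L.Lam
  let bZ : Module.Basis n ℤ L.Lam := Module.Free.chooseBasis ℤ L.Lam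
  let ιΛ : Λ →+* ℂ := ι.comp Λ.subtype
  let A : X → Matrix n n Λ :=
    Sum.elim (fun p => (LinearMap.toMatrix bZ bZ (L.T p.1)).map (Int.castRingHom Λ))
      (fun p => (LinearMap.toMatrix bZ bZ (L.D p.1)).map (Int.castRingHom Λ))
  let per : nebSub M χc →ₗ[ℂ] (n → ℂ) :=
    (Algebra.TensorProduct.basis ℂ bZ).equivFun.toLinearMap ∘ₗ P.per ∘ₗ (nebSub M χc).subtype
  have hper_apply : ∀ s, per s = (Algebra.TensorProduct.basis ℂ bZ).equivFun
      (P.per (s : CuspForm (Gamma1 M) 2)) := fun s => rfl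
  have hper : Function.Injective per := by
    intro s s' h
    rw [hper_apply, hper_apply] at h
    exact Subtype.ext (P.per_inj ((Algebra.TensorProduct.basis ℂ bZ).equivFun.injective h))
  have hA : ∀ x s, per (F x s) = ((A x).map ιΛ).mulVec (per s) := by
    rintro (p | p) s
    · show per (FT p s) = (((LinearMap.toMatrix bZ bZ (L.T p.1)).map (Int.castRingHom Λ)).map
        ιΛ).mulVec (per s)
      rw [hper_apply, hper_apply, hFTper, equivFun_baseChange, map_map_intCast]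
    · show per ((ι (χ (p.1 : ZMod M)) • (1 : Module.End ℂ (nebSub M χc))) s) =
        (((LinearMap.toMatrix bZ bZ (L.D p.1)).map (Int.castRingHom Λ)).map ιΛ).mulVec (per s)
      rw [LinearMap.smul_apply, Module.End.one_apply, map_smul, hper_apply, map_map_intCast,
        ← equivFun_baseChange, P.hD p.1 p.2.1 p.2.2 χc s s.2, map_smul]
  let φ : X → Λ := Sum.elim (fun p => ⟨t p.1, ht p.1⟩)
    (fun p => ⟨χ (p.1 : ZMod M), dirichlet_mem Λ χ _⟩)
  have hpχ : ∀ p : ℕ, (p : Qb) * χ (p : ZMod M) ∈ Λ := fun p =>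
    Λ.mul_mem _ _ (natCast_mem Λ p) (dirichlet_mem Λ χ _)
  have hFTq' : ∀ (p : Xp) (s : nebSub M χc) (m : ℕ),
      qCoeff (FT p s : CuspForm (Gamma1 M) 2) m =
        fT (ι ((p.1 : Qb) * χ (p.1 : ZMod M))) p.1
          (fun m => qCoeff (s : CuspForm (Gamma1 M) 2) m) m := by
    intro p s m
    rw [hFTq, map_mul, map_natCast]
  obtain ⟨v, hv, hvx⟩ := NVCore_exists_eigenvector ιΛ F hF A per hper hA φ (zSub Λ ι χc)
    (fun c z hz => smul_mem_zSub Λ ι χc c.2 hz)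
    (by
      rintro (p | p) z hz
      · exact fT_mem_zSub Λ ι χc (hpχ p.1) p.1 (FT p) (hFTq' p) hz
      · exact smul_mem_zSub Λ ι χc (dirichlet_mem Λ χ _) hz)
    ⟨g, hneb⟩
    (by
      rintro ⟨c, hc, hcg⟩
      obtain ⟨m, hm⟩ := hb0
      apply hm
      have : c m = b m := ι.injective (by rw [hcg, hb])
      rw [← this]
      exact hc m)
    (by
      intro c hc
      refine ⟨fun m => (c : Qb) * b m, fun m => ?_, fun m => ?_⟩
      · show (c : Qb) * b m ∈ Λ.nonunits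
        rw [mul_comm]
        exact nonunits_mul_left Λ (hbΛ m) ((mem_maximalIdeal_iff Λ c).mp hc)
      · rw [map_mul, hb, Submodule.coe_smul, qCoeff_smul1]
        rfl)
    (by
      rintro (p | p)
      · refine ⟨fun m => b (p.1 * m) + (p.1 : Qb) * χ (p.1 : ZMod M) *
          (if p.1 ∣ m then b (m / p.1) else 0) - t p.1 * b m, fun m => hcong p.1 p.2.1 p.2.2 m,
          fun m => ?_⟩
        show _ = qCoeff ((FT p ⟨g, hneb⟩ - ι (t p.1) • (⟨g, hneb⟩ : nebSub M χc) :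
          nebSub M χc) : CuspForm (Gamma1 M) 2) m
        rw [Submodule.coe_sub, qCoeff_sub1, Submodule.coe_smul, qCoeff_smul1, hFTq', fT_apply]
        simp only [map_sub, map_add, map_mul, hb, apply_ite ι, map_zero]
      · have : F (Sum.inr p) ⟨g, hneb⟩ - ιΛ (φ (Sum.inr p)) • (⟨g, hneb⟩ : nebSub M χc) = 0 := by
          show (ι (χ (p.1 : ZMod M)) • (1 : Module.End ℂ (nebSub M χc))) ⟨g, hneb⟩ -
            ι (χ (p.1 : ZMod M)) • (⟨g, hneb⟩ : nebSub M χc) = 0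
          rw [LinearMap.smul_apply, Module.End.one_apply, sub_self]
        rw [this]
        exact (zSub Λ ι χc).zero_mem)
  let bk := Algebra.TensorProduct.basis (kk Λ) bZ
  obtain ⟨x, hx⟩ : ∃ x : kk Λ ⊗[ℤ] L.Lam, bk.equivFun x = v :=
    ⟨bk.equivFun.symm v, bk.equivFun.apply_symm_apply v⟩
  refine ⟨x, ?_, fun p hp hpM => ⟨?_, ?_⟩⟩
  · intro h
    apply hv
    rw [← hx, h]
    exact map_zero bk.equivFun
  · apply bk.equivFun.injective
    have h1 := hvx (Sum.inl ⟨p, hp, hpM⟩)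
    refine (equivFun_baseChange bZ (kk Λ) (L.T p) x).trans (Eq.trans ?_
      (map_smul bk.equivFun (res Λ (t p)) x).symm)
    rw [res_of_mem Λ (ht p)]
    refine Eq.trans ?_ (h1.trans ?_)
    · show _ = (((LinearMap.toMatrix bZ bZ (L.T p)).map (Int.castRingHom Λ)).map
        (IsLocalRing.residue Λ)).mulVec v
      rw [map_map_intCast, ← hx]
      rfl
    · rw [← hx]
      rfl
  · apply bk.equivFun.injective
    have h1 := hvx (Sum.inr ⟨p, hp, hpM⟩)
    refine (equivFun_baseChange bZ (kk Λ) (L.D p) x).trans (Eq.trans ?_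
      (map_smul bk.equivFun (res Λ (χ (p : ZMod M))) x).symm)
    rw [res_of_mem Λ (dirichlet_mem Λ χ _)]
    refine Eq.trans ?_ (h1.trans ?_)
    · show _ = (((LinearMap.toMatrix bZ bZ (L.D p)).map (Int.castRingHom Λ)).map
        (IsLocalRing.residue Λ)).mulVec v
      rw [map_map_intCast, ← hx]
      rfl
    · rw [← hx]
      rfl

end Fermat.Agent.G1.H
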