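import Fermat.Agent.G1.H.NVCore.Ker
import Fermat.Agent.G1.H.NVCore.Rho
import Fermat.Agent.G1.H.NVCore.Rows

/-!
# G1-H, file NVCore: the abstract non-vanishing lemma (Mathlib only)

`R` a local ring with residue field `k`, `S` a vector space over a field `𝕂 ⊇ R` with commuting
operators `F x`, an injective "period map" `per : S → 𝕂ⁿ` which intertwines `F x` with a matrix
`A x ∈ Mₙ(R)` (the `A x` need NOT commute).  If `g ∈ S` is an "eigenvector modulo `Z`" with
eigenvalues `φ x`, `g ∉ Z`, then the system `φ x mod 𝔪` occurs in `kⁿ`: there is `v ≠ 0` in `kⁿ`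
with `(A x mod 𝔪) v = (φ x mod 𝔪) v`.

Proof.  `P = R[X_x]` acts on `S` through `ρ`; `I = ker (P → k, X_x ↦ φ x)`.
If there is no `v`, then by duality `∑_x im ((A x)ᵀ - φ x) = kⁿ`, hence every basis vector `e_i` of
`Rⁿ` is `∑_x ((A x)ᵀ - φ x) w_{i,x} + m_i`, `m_i ∈ 𝔪ⁿ`; applying this to the coordinate functionals
`per_i`: `per_i s = ∑_j per_j (ρ (Θ i j) s)` with `Θ ∈ Mₙ(I)`.  Determinant trick:
`ρ (det (1 - Θ)) = 0`.  But `ρ r g ≡ (eval φ r) g mod Z` for all `r ∈ P`, and
`eval φ (det (1 - Θ)) ∈ 1 + 𝔪`: `g ∈ Z`, contradiction.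
-/

set_option autoImplicit false

namespace Fermat.Agent.G1.H

open IsLocalRing

/-- **The abstract non-vanishing lemma.** -/
theorem NVCore_exists_eigenvector {R : Type} [CommRing R] [IsLocalRing R] {𝕂 : Type} [Field 𝕂]
    (ι : R →+* 𝕂) {S : Type} [AddCommGroup S] [Module 𝕂 S] {X : Type} (F : X → Module.End 𝕂 S)
    (hF : ∀ x y, Commute (F x) (F y)) {n : Type} [Fintype n] [DecidableEq n]
    (A : X → Matrix n n R) (per : S →ₗ[𝕂] (n → 𝕂)) (hper : Function.Injective per)
    (hA : ∀ x s, per (F x s) = ((A x).map ι).mulVec (per s)) (φ : X → R)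
    (Z : AddSubgroup S) (hZs : ∀ (c : R) (z : S), z ∈ Z → ι c • z ∈ Z)
    (hZF : ∀ x z, z ∈ Z → F x z ∈ Z) (g : S) (hg : g ∉ Z)
    (hgm : ∀ c ∈ maximalIdeal R, ι c • g ∈ Z) (hgF : ∀ x, F x g - ι (φ x) • g ∈ Z) :
    ∃ v : n → ResidueField R, v ≠ 0 ∧
      ∀ x, ((A x).map (residue R)).mulVec v = residue R (φ x) • v := by
  classical
  by_contra hno
  obtain ⟨ρ, hρX, hρC, -⟩ := NVCore_exists_rho ι F hF
  have htop : (⨆ x, LinearMap.range (Matrix.mulVecLin
      ((A x).map (residue R) - Matrix.scalar n (residue R (φ x))).transpose)) = ⊤ := by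
    by_contra hne
    obtain ⟨v, hv, hvx⟩ := NVCore_exists_ker
      (fun x => (A x).map (residue R) - Matrix.scalar n (residue R (φ x))) hne
    refine hno ⟨v, hv, fun x => ?_⟩
    have h1 := hvx x
    rw [Matrix.sub_mulVec, sub_eq_zero] at h1
    rw [h1]
    ext i
    simp [Matrix.scalar_apply, Matrix.mulVec_diagonal]
  choose θ hθI hθ using fun i : n =>
    NVCore_rows ι F ρ hρX hρC A per hA φ htop (Pi.single i 1)
  let Θ : Matrix n n (MvPolynomial X R) := Matrix.of θ
  have h0 : ρ (1 - Θ).det = 0 := by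
    refine NVCore_det_trick ρ per hper (1 - Θ) fun s i => ?_
    have h1 := hθ i s
    have h2 : ∑ j, ι ((Pi.single i 1 : n → R) j) * per s j = per s i := by
      rw [Finset.sum_eq_single i]
      · simp
      · intro j _ hj
        simp [Pi.single_eq_of_ne hj]
      · simp
    rw [h2] at h1
    have h3 : ∀ j, per (ρ ((1 - Θ) i j) s) j =
        (if i = j then per s j else 0) - per (ρ (θ i j) s) j := by
      intro j
      rw [Matrix.sub_apply, map_sub, LinearMap.sub_apply, map_sub, Pi.sub_apply]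
      congr 1
      by_cases hij : i = j
      · subst hij
        simp
      · simp [Matrix.one_apply_ne hij, hij]
    simp only [h3, Finset.sum_sub_distrib, Finset.sum_ite_eq, Finset.mem_univ, if_true]
    rw [h1, sub_self]
  have hdet : residue R (MvPolynomial.eval φ (1 - Θ).det) = 1 := by
    have h1 : ((residue R).comp (MvPolynomial.eval φ)) (1 - Θ).det =
        (((residue R).comp (MvPolynomial.eval φ)).mapMatrix (1 - Θ)).det :=
      RingHom.map_det _ _
    have h2 : ((residue R).comp (MvPolynomial.eval φ)).mapMatrix (1 - Θ) = 1 := by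
      rw [map_sub, map_one]
      have : ((residue R).comp (MvPolynomial.eval φ)).mapMatrix Θ = 0 := by
        ext i j
        exact hθI i j
      rw [this, sub_zero]
    rw [h2, Matrix.det_one] at h1
    exact h1
  have hc := (NVCore_rho_cong ι F ρ hρX hρC φ Z hZs hZF g hgF (1 - Θ).det).2
  rw [h0, LinearMap.zero_apply, zero_sub] at hc
  have hc' : ι (MvPolynomial.eval φ (1 - Θ).det) • g ∈ Z := by
    simpa using Z.neg_mem hc
  have hm : MvPolynomial.eval φ (1 - Θ).det - 1 ∈ maximalIdeal R := by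
    rw [← residue_eq_zero_iff, map_sub, hdet, map_one, sub_self]
  have h5 := Z.sub_mem hc' (hgm _ hm)
  rw [← sub_smul, ← map_sub, sub_sub_cancel, map_one, one_smul] at h5
  exact hg h5

end Fermat.Agent.G1.H
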