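import Fermat.Agent.G1.H.Iface

/-!
# G1-H, file QExp: `q`-coefficients of cusp forms on `Γ₁(M)`, the nebentypus subspace

Port of the section `QCoeff` of `Fermat/Agent/S49/Normalize.lean` from `Γ₀(N)` to `Γ₁(M)`
(`CongruenceSubgroup.strictPeriods_Gamma1` is in Mathlib).
-/

set_option autoImplicit false

open CongruenceSubgroup UpperHalfPlane ModularFormClass
open scoped MatrixGroups ModularForm

namespace Fermat.Agent.G1.H

open Fermat.Agent.S48

variable {M : ℕ} {k : ℤ}

theorem one_mem_strictPeriods_Gamma1 (M : ℕ) :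
    (1 : ℝ) ∈ (Subgroup.map (Matrix.SpecialLinearGroup.mapGL ℝ) (Gamma1 M)).strictPeriods := by
  rw [CongruenceSubgroup.strictPeriods_Gamma1]
  exact AddSubgroup.mem_zmultiples 1

theorem qCoeff_smul1 (c : ℂ) (g : CuspForm (Gamma1 M) k) (n : ℕ) :
    qCoeff (⇑(c • g : CuspForm (Gamma1 M) k)) n = c * qCoeff g n := by
  unfold qCoeff
  have := ModularForm.qExpansion_smul (h := 1) one_pos (one_mem_strictPeriods_Gamma1 M) c g
  rw [FunLike.coe_smul, this]
  simp

theorem qCoeff_add1 (f g : CuspForm (Gamma1 M) k) (n : ℕ) :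
    qCoeff (⇑(f + g : CuspForm (Gamma1 M) k)) n = qCoeff f n + qCoeff g n := by
  unfold qCoeff
  have := ModularForm.qExpansion_add (h := 1) one_pos (one_mem_strictPeriods_Gamma1 M) f g
  rw [FunLike.coe_add, this]
  simp

theorem qCoeff_sub1 (f g : CuspForm (Gamma1 M) k) (n : ℕ) :
    qCoeff (⇑(f - g : CuspForm (Gamma1 M) k)) n = qCoeff f n - qCoeff g n := by
  unfold qCoeff
  have := ModularForm.qExpansion_sub (h := 1) one_pos (one_mem_strictPeriods_Gamma1 M) f g
  rw [FunLike.coe_sub, this]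
  simp

theorem qCoeff_neg1 (g : CuspForm (Gamma1 M) k) (n : ℕ) :
    qCoeff (⇑(-g : CuspForm (Gamma1 M) k)) n = - qCoeff g n := by
  have h := qCoeff_smul1 (-1) g n
  rw [neg_one_smul, neg_one_mul] at h
  exact h

theorem qCoeff_zero1 (n : ℕ) : qCoeff (⇑(0 : CuspForm (Gamma1 M) k)) n = 0 := by
  have h := qCoeff_smul1 0 (0 : CuspForm (Gamma1 M) k) n
  rw [zero_smul, zero_mul] at h
  exact h

theorem eq_zero_of_qCoeff1 (g : CuspForm (Gamma1 M) k) (h : ∀ n, qCoeff g n = 0) : g = 0 := by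
  have hΓ := one_mem_strictPeriods_Gamma1 M
  have : Fact (IsCusp OnePoint.infty (Subgroup.map (Matrix.SpecialLinearGroup.mapGL ℝ) (Gamma1 M))) :=
    ⟨Subgroup.isCusp_of_mem_strictPeriods one_pos hΓ⟩
  have h0 : qExpansion 1 g = 0 := by
    ext n; simpa [qCoeff] using h n
  have := (UpperHalfPlane.qExpansion_eq_zero_iff (h := 1) one_pos
    (SlashInvariantFormClass.periodic_comp_ofComplex g hΓ) (CuspFormClass.holo g)
    (ModularFormClass.bdd_at_infty g)).1 h0
  exact DFunLike.coe_injective this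

theorem eq_of_qCoeff1 (f g : CuspForm (Gamma1 M) k) (h : ∀ n, qCoeff f n = qCoeff g n) :
    f = g := by
  refine sub_eq_zero.1 (eq_zero_of_qCoeff1 _ fun n => ?_)
  rw [qCoeff_sub1, h n, sub_self]

/-- the subspace of the cusp forms with nebentypus `χ`. -/
def nebSub (M : ℕ) (χ : ZMod M → ℂ) : Submodule ℂ (CuspForm (Gamma1 M) 2) where
  carrier := {g | HasNeb M 2 χ g}
  add_mem' := by
    intro a b ha hb γ hγ
    rw [FunLike.coe_add, SlashAction.add_slash, ha γ hγ, hb γ hγ, smul_add]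
  zero_mem' := by
    intro γ hγ
    rw [FunLike.coe_zero, SlashAction.zero_slash, smul_zero]
  smul_mem' := by
    intro c a ha γ hγ
    rw [FunLike.coe_smul, ModularForm.SL_smul_slash, ha γ hγ, smul_comm]

theorem mem_nebSub (χ : ZMod M → ℂ) (g : CuspForm (Gamma1 M) 2) :
    g ∈ nebSub M χ ↔ HasNeb M 2 χ g := Iff.rfl

end Fermat.Agent.G1.H
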